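import Fermat.Agent.MW.Descent
import Fermat.Agent.TEll.Inputs
import Fermat.Agent.X0Emb.Emb

/-!
# The cusp at infinity of `X₀(N)` over `ℚ̄`
-/

set_option autoImplicit false

namespace Fermat.Agent.MW

open ModularCurve AlgebraicCurve

variable (N : ℕ) [NeZero N]

theorem exists_order_neg : ∃ x : modularFunctionFieldBar N,
    (x : LaurentSeries (AlgebraicClosure ℚ)).order < 0 := by
  refine ⟨X0Emb.jF N, ?_⟩
  rw [X0Emb.coe_jF, X0Emb.order_jqModC]
  norm_num

/-- The cusp `∞`. -/
noncomputable def cuspInf : Place (AlgebraicClosure ℚ) (modularFunctionFieldBar N) :=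
  infPlace (modularFunctionFieldBar N) (exists_order_neg N)

theorem smul_cuspInf (σ : AlgebraicClosure ℚ ≃ₐ[ℚ] AlgebraicClosure ℚ) :
    arithmeticGalois (modularFunctionFieldFull N) σ • cuspInf N = cuspInf N :=
  smul_infPlace (modularFunctionFieldFull N) (exists_order_neg N) σ

theorem span_fixed_cuspInf (m : ℤ) :
    Submodule.span (AlgebraicClosure ℚ) {f | f ∈ riemannRochSpace (Finsupp.single (cuspInf N) m) ∧
      ∀ σ : AlgebraicClosure ℚ ≃ₐ[ℚ] AlgebraicClosure ℚ,
        arithmeticGalois (modularFunctionFieldFull N) σ • f = f} =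
      riemannRochSpace (Finsupp.single (cuspInf N) m) := by
  refine riemannRochSpace_span_fixed (modularFunctionFieldFull N) _ (fun σ => ?_)
  rw [SemilinearAut.smul_single, smul_cuspInf]

end Fermat.Agent.MW
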