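import Fermat.Prelude.Def_ModularCurve_ArithmeticGalois
import Mathlib.RingTheory.LaurentSeries
import Mathlib.RingTheory.HahnSeries.Multiplication

/-!
# The place at infinity (`q`-adic order) of a field of Laurent series
-/

set_option autoImplicit false

namespace Fermat.Agent.MW

open ModularCurve AlgebraicCurve

section

variable {L : Type*} [Field L]

lemma order_inv' {x : LaurentSeries L} : x⁻¹.order = - x.order := by
  by_cases hx : x = 0
  · subst hx
    simp
  have h := HahnSeries.order_mul hx (inv_ne_zero hx)
  rw [mul_inv_cancel₀ hx, HahnSeries.order_one] at h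
  omega

/-- Laurent series of nonnegative order. -/
def nonnegSubring (L : Type*) [Field L] : Subring (LaurentSeries L) where
  carrier := {x | x = 0 ∨ 0 ≤ x.order}
  mul_mem' := by
    rintro x y (rfl | hx) (rfl | hy)
    · left; simp
    · left; simp
    · left; simp
    · by_cases hx0 : x = 0
      · left; simp [hx0]
      by_cases hy0 : y = 0
      · left; simp [hy0]
      right
      rw [HahnSeries.order_mul hx0 hy0]
      omega
  one_mem' := by right; rw [HahnSeries.order_one]
  add_mem' := by
    rintro x y hx hy
    by_cases h : x + y = 0
    · left; exact h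
    right
    rcases hx with rfl | hx
    · rw [zero_add] at h ⊢
      rcases hy with rfl | hy
      · exact absurd rfl h
      · exact hy
    rcases hy with rfl | hy
    · rw [add_zero]; exact hx
    · exact (le_min hx hy).trans (HahnSeries.min_order_le_order_add h)
  zero_mem' := by left; rfl
  neg_mem' := by
    rintro x (rfl | hx)
    · left; simp
    · right; rw [HahnSeries.order_neg]; exact hx

lemma mem_nonnegSubring {x : LaurentSeries L} : x ∈ nonnegSubring L ↔ x = 0 ∨ 0 ≤ x.order :=
  Iff.rfl

/-- The valuation ring of the place at infinity. -/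
noncomputable def infValuationSubring (F : IntermediateField L (LaurentSeries L)) : ValuationSubring F :=
  { (nonnegSubring L).comap (algebraMap F (LaurentSeries L)) with
    mem_or_inv_mem' := fun x => by
      by_cases hx : 0 ≤ (x : LaurentSeries L).order
      · left; right; exact hx
      · right; right
        change 0 ≤ ((x⁻¹ : F) : LaurentSeries L).order
        have : ((x⁻¹ : F) : LaurentSeries L) = (x : LaurentSeries L)⁻¹ := rfl
        rw [this, order_inv']
        omega }

lemma mem_infValuationSubring {F : IntermediateField L (LaurentSeries L)} {x : F} :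
    x ∈ infValuationSubring F ↔ (x : LaurentSeries L) = 0 ∨ 0 ≤ (x : LaurentSeries L).order :=
  Iff.rfl

/-- The place at infinity. -/
noncomputable def infPlace (F : IntermediateField L (LaurentSeries L))
    (hF : ∃ x : F, (x : LaurentSeries L).order < 0) : Place L F where
  toValuationSubring := infValuationSubring F
  algebraMap_mem' := fun a => by
    rw [mem_infValuationSubring]
    have : ((algebraMap L F a : F) : LaurentSeries L) = algebraMap L (LaurentSeries L) a := rfl
    rw [this, algebraMap_laurentSeries_eq_single]
    by_cases ha : a = 0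
    · left; simp [ha]
    · right; rw [HahnSeries.order_single ha]
  ne_top' := fun h => by
    obtain ⟨x, hx⟩ := hF
    have h1 : x ∈ infValuationSubring F := by rw [h]; exact ValuationSubring.mem_top x
    rw [mem_infValuationSubring] at h1
    rcases h1 with h1 | h1
    · rw [h1, HahnSeries.order_zero] at hx; exact lt_irrefl _ hx
    · omega
  isPrincipalIdealRing' := by
    constructor
    intro I
    by_cases hI : I = ⊥
    · rw [hI]; exact bot_isPrincipal
    obtain ⟨g₀, hg₀, hg₀0⟩ := Submodule.exists_mem_ne_zero_of_ne_bot hI
    -- an element of minimal order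
    let o : infValuationSubring F → ℕ := fun x => ((x : F) : LaurentSeries L).order.toNat
    obtain ⟨g, ⟨hgI, hg0⟩, hgmin⟩ := (measure o).wf.has_min
      {x | x ∈ I ∧ x ≠ 0} ⟨g₀, hg₀, hg₀0⟩
    refine ⟨g, le_antisymm ?_ ?_⟩
    · intro x hx
      by_cases hx0 : x = 0
      · rw [hx0]; exact Submodule.zero_mem _
      have hord : ∀ y : infValuationSubring F, y ≠ 0 → 0 ≤ ((y : F) : LaurentSeries L).order := by
        intro y hy
        rcases mem_infValuationSubring.mp y.2 with h | h
        · exact absurd (Subtype.ext (Subtype.ext h)) hy
        · exact h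
      have h1 : ¬ o x < o g := hgmin x ⟨hx, hx0⟩
      have h2 := hord x hx0
      have h3 := hord g hg0
      have h4 : ((g : F) : LaurentSeries L).order ≤ ((x : F) : LaurentSeries L).order := by
        simp only [o] at h1
        omega
      have hgF : (g : F) ≠ 0 := fun h => hg0 (Subtype.ext h)
      have hgL : ((g : F) : LaurentSeries L) ≠ 0 := fun h => hgF (Subtype.ext h)
      have hxL : ((x : F) : LaurentSeries L) ≠ 0 := fun h => hx0 (Subtype.ext (Subtype.ext h))
      have h5 : (x : F) / (g : F) ∈ infValuationSubring F := by
        rw [mem_infValuationSubring]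
        right
        have : (((x : F) / (g : F) : F) : LaurentSeries L) =
          ((x : F) : LaurentSeries L) * ((g : F) : LaurentSeries L)⁻¹ := by
          rw [div_eq_mul_inv]; rfl
        rw [this, HahnSeries.order_mul hxL (inv_ne_zero hgL), order_inv']
        omega
      rw [Submodule.mem_span_singleton]
      refine ⟨⟨(x : F) / (g : F), h5⟩, ?_⟩
      apply Subtype.ext
      change (x : F) / (g : F) * (g : F) = x
      field_simp
    · rw [Submodule.span_singleton_le_iff_mem]
      exact hgI

end

section Galois

variable {L : Type*} [Field L] [Algebra ℚ L] (F₀ : IntermediateField ℚ (LaurentSeries ℚ))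

lemma order_coeffMap (σ : L ≃ₐ[ℚ] L) (x : LaurentSeries L) :
    (coeffMap (σ : L →+* L) x).order = x.order := by
  by_cases hx : x = 0
  · subst hx; rw [map_zero]
  have hx' : coeffMap (σ : L →+* L) x ≠ 0 := by
    rw [Ne, map_eq_zero]
    exact hx
  apply le_antisymm
  · apply HahnSeries.order_le_of_coeff_ne_zero
    rw [coeffMap_coeff]
    exact (map_ne_zero (σ : L →+* L)).mpr (by rw [HahnSeries.coeff_order_eq_zero.ne]; exact hx)
  · apply HahnSeries.order_le_of_coeff_ne_zero
    have h1 : (coeffMap (σ : L →+* L) x).coeff (coeffMap (σ : L →+* L) x).order ≠ 0 := by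
      rw [HahnSeries.coeff_order_eq_zero.ne]; exact hx'
    rw [coeffMap_coeff] at h1
    exact (map_ne_zero (σ : L →+* L)).mp h1

/-- The place at infinity is fixed by the Galois action. -/
theorem smul_infPlace (hF : ∃ x : laurentBaseChange L F₀, (x : LaurentSeries L).order < 0)
    (σ : L ≃ₐ[ℚ] L) :
    arithmeticGalois F₀ σ • infPlace (laurentBaseChange L F₀) hF
      = infPlace (laurentBaseChange L F₀) hF := by
  apply Place.ext
  rw [SemilinearAut.smul_toValuationSubring]
  ext x
  rw [ValuationSubring.mem_pointwise_smul_iff_inv_smul_mem, ← map_inv]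
  change arithmeticGalois F₀ σ⁻¹ • x ∈ infValuationSubring _ ↔ x ∈ infValuationSubring _
  rw [mem_infValuationSubring, mem_infValuationSubring, coe_arithmeticGalois_smul, order_coeffMap,
    map_eq_zero]

end Galois

end Fermat.Agent.MW
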