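import Fermat.Agent.Frob.Exists
import Fermat.Agent.FF.Extension
import Fermat.Prelude.Def_ModularCurve_ArithmeticGalois

/-!
# Open stabilisers for the Galois action on `Pic0` of a curve with `q`-expansion model
-/

set_option autoImplicit false

namespace Fermat.Agent.MW

open ModularCurve AlgebraicCurve
open Fermat.Agent.Frob (GQ)
open Fermat.Agent

/-- Elements of the compositum are fixed by an open subgroup. -/
theorem exists_fixing_elem (F₀ : IntermediateField ℚ (LaurentSeries ℚ))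
    {x : LaurentSeries (AlgebraicClosure ℚ)} (hx : x ∈ laurentBaseChange (AlgebraicClosure ℚ) F₀) :
    ∃ K : IntermediateField ℚ (AlgebraicClosure ℚ), FiniteDimensional ℚ K ∧
      ∀ σ ∈ K.fixingSubgroup, coeffMap ((σ : GQ) : AlgebraicClosure ℚ →+* AlgebraicClosure ℚ) x
        = x := by
  rw [mem_laurentBaseChange_iff] at hx
  have h2 : ∀ x y : LaurentSeries (AlgebraicClosure ℚ),
      (∃ K : IntermediateField ℚ (AlgebraicClosure ℚ), FiniteDimensional ℚ K ∧
        ∀ σ ∈ K.fixingSubgroup, coeffMap ((σ : GQ) : AlgebraicClosure ℚ →+* AlgebraicClosure ℚ) x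
        = x) →
      (∃ K : IntermediateField ℚ (AlgebraicClosure ℚ), FiniteDimensional ℚ K ∧
        ∀ σ ∈ K.fixingSubgroup, coeffMap ((σ : GQ) : AlgebraicClosure ℚ →+* AlgebraicClosure ℚ) y
        = y) →
      (∃ K : IntermediateField ℚ (AlgebraicClosure ℚ), FiniteDimensional ℚ K ∧
        ∀ σ ∈ K.fixingSubgroup,
          coeffMap ((σ : GQ) : AlgebraicClosure ℚ →+* AlgebraicClosure ℚ) x = x ∧
          coeffMap ((σ : GQ) : AlgebraicClosure ℚ →+* AlgebraicClosure ℚ) y = y) := by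
    rintro x y ⟨K₁, hK₁, h₁⟩ ⟨K₂, hK₂, h₂⟩
    refine ⟨K₁ ⊔ K₂, IntermediateField.finiteDimensional_sup K₁ K₂, fun σ hσ => ?_⟩
    rw [IntermediateField.fixingSubgroup_sup] at hσ
    exact ⟨h₁ σ hσ.1, h₂ σ hσ.2⟩
  induction hx using Subfield.closure_induction with
  | mem y hy =>
    rcases hy with ⟨a, rfl⟩ | ⟨z, hz, rfl⟩
    · refine ⟨IntermediateField.adjoin ℚ {a},
        IntermediateField.adjoin.finiteDimensional (Algebra.IsIntegral.isIntegral a),
        fun σ hσ => ?_⟩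
      rw [coeffMap_algebraMap]
      congr 1
      exact hσ ⟨a, IntermediateField.mem_adjoin_simple_self ℚ a⟩
    · refine ⟨⊥, inferInstance, fun σ _ => ?_⟩
      exact coeffMap_coeffEmb σ z
  | one => exact ⟨⊥, inferInstance, fun σ _ => map_one _⟩
  | add x y _ _ hx hy =>
    obtain ⟨K, hK, h⟩ := h2 x y hx hy
    refine ⟨K, hK, fun σ hσ => ?_⟩
    rw [map_add, (h σ hσ).1, (h σ hσ).2]
  | neg x _ hx =>
    obtain ⟨K, hK, h⟩ := hx
    refine ⟨K, hK, fun σ hσ => ?_⟩
    rw [map_neg, h σ hσ]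
  | inv x _ hx =>
    obtain ⟨K, hK, h⟩ := hx
    refine ⟨K, hK, fun σ hσ => ?_⟩
    rw [map_inv₀, h σ hσ]
  | mul x y _ _ hx hy =>
    obtain ⟨K, hK, h⟩ := h2 x y hx hy
    refine ⟨K, hK, fun σ hσ => ?_⟩
    rw [map_mul, (h σ hσ).1, (h σ hσ).2]

variable (F₀ : IntermediateField ℚ (LaurentSeries ℚ))

theorem exists_fixing_field_elem (f : laurentBaseChange (AlgebraicClosure ℚ) F₀) :
    ∃ K : IntermediateField ℚ (AlgebraicClosure ℚ), FiniteDimensional ℚ K ∧
      ∀ σ ∈ K.fixingSubgroup, arithmeticGalois F₀ σ • f = f := by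
  obtain ⟨K, hK, h⟩ := exists_fixing_elem F₀ f.2
  refine ⟨K, hK, fun σ hσ => Subtype.ext ?_⟩
  rw [coe_arithmeticGalois_smul]
  exact h σ hσ

variable [FF.IsFF (AlgebraicClosure ℚ) (laurentBaseChange (AlgebraicClosure ℚ) F₀)]

theorem exists_fixing_place
    (v : Place (AlgebraicClosure ℚ) (laurentBaseChange (AlgebraicClosure ℚ) F₀)) :
    ∃ K : IntermediateField ℚ (AlgebraicClosure ℚ), FiniteDimensional ℚ K ∧
      ∀ σ ∈ K.fixingSubgroup, arithmeticGalois F₀ σ • v = v := by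
  obtain ⟨y, -, hy⟩ := FF.exists_single_zero v
  obtain ⟨K, hK, h⟩ := exists_fixing_field_elem F₀ y
  refine ⟨K, hK, fun σ hσ => ?_⟩
  rw [← hy]
  have h1 := SemilinearAut.ord_smul (arithmeticGalois F₀ σ) v y
  rw [h σ hσ] at h1
  rw [h1, hy]

theorem exists_fixing_divisor
    (D : Divisor (AlgebraicClosure ℚ) (laurentBaseChange (AlgebraicClosure ℚ) F₀)) :
    ∃ K : IntermediateField ℚ (AlgebraicClosure ℚ), FiniteDimensional ℚ K ∧
      ∀ σ ∈ K.fixingSubgroup, arithmeticGalois F₀ σ • D = D := by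
  induction D using Finsupp.induction with
  | zero => exact ⟨⊥, inferInstance, fun σ _ => smul_zero _⟩
  | single_add v n D _ _ ih =>
    obtain ⟨K₁, hK₁, h₁⟩ := exists_fixing_place F₀ v
    obtain ⟨K₂, hK₂, h₂⟩ := ih
    refine ⟨K₁ ⊔ K₂, IntermediateField.finiteDimensional_sup K₁ K₂, fun σ hσ => ?_⟩
    rw [IntermediateField.fixingSubgroup_sup] at hσ
    rw [smul_add, SemilinearAut.smul_single, h₁ σ hσ.1, h₂ σ hσ.2]

/-- **(I4)** open stabilisers in `Pic0`. -/
theorem exists_fixing_pic0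
    (x : Pic0 (AlgebraicClosure ℚ) (laurentBaseChange (AlgebraicClosure ℚ) F₀)) :
    ∃ K : IntermediateField ℚ (AlgebraicClosure ℚ), FiniteDimensional ℚ K ∧
      ∀ σ ∈ K.fixingSubgroup, σ • x = x := by
  obtain ⟨D, rfl⟩ := Pic0.mk_surjective x
  obtain ⟨K, hK, h⟩ := exists_fixing_divisor F₀ (D : Divisor _ _)
  refine ⟨K, hK, fun σ hσ => ?_⟩
  rw [galois_smul_pic0_def, SemilinearAut.pic0_smul_mk]
  exact congrArg Pic0.mk (Subtype.ext (h σ hσ))

end Fermat.Agent.MW
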