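import Fermat.Agent.MW.Span
import Fermat.Agent.MW.Open
import Fermat.Agent.MW.InfPlace

/-!
# Riemann-Roch spaces of Galois stable divisors are spanned by fixed elements
-/

set_option autoImplicit false

namespace Fermat.Agent.MW

open ModularCurve AlgebraicCurve
open Fermat.Agent.Frob (GQ)
open Fermat.Agent

section

variable {K F : Type*} [Field K] [Field F] [Algebra K F]

/-- The action on Riemann-Roch spaces. -/
theorem smul_mem_riemannRochSpace (g : SemilinearAut K F) {D : Divisor K F} {f : F}
    (hf : f ∈ riemannRochSpace D) : g • f ∈ riemannRochSpace (g • D) := by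
  rw [mem_riemannRochSpace_iff] at hf ⊢
  intro v
  rcases hf (g⁻¹ • v) with h | h
  · left; rw [h, smul_zero]
  · right
    have h1 := SemilinearAut.ord_smul g (g⁻¹ • v) f
    rw [smul_inv_smul] at h1
    rw [h1, SemilinearAut.divisor_smul_apply]
    exact h

end

variable (F₀ : IntermediateField ℚ (LaurentSeries ℚ))
variable [FF.IsFF (AlgebraicClosure ℚ) (laurentBaseChange (AlgebraicClosure ℚ) F₀)]

/-- **(SPAN)** -/
theorem riemannRochSpace_span_fixed
    (D : Divisor (AlgebraicClosure ℚ) (laurentBaseChange (AlgebraicClosure ℚ) F₀))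
    (hD : ∀ σ : AlgebraicClosure ℚ ≃ₐ[ℚ] AlgebraicClosure ℚ, arithmeticGalois F₀ σ • D = D) :
    Submodule.span (AlgebraicClosure ℚ) {f | f ∈ riemannRochSpace D ∧
      ∀ σ : AlgebraicClosure ℚ ≃ₐ[ℚ] AlgebraicClosure ℚ, arithmeticGalois F₀ σ • f = f} =
      riemannRochSpace D := by
  have hfin : FiniteDimensional (AlgebraicClosure ℚ) (riemannRochSpace D) := inferInstance
  refine span_fixed F₀ (riemannRochSpace D) (fun σ f hf => ?_)
  have := smul_mem_riemannRochSpace (arithmeticGalois F₀ σ) hf
  rwa [hD] at this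

end Fermat.Agent.MW
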