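import Fermat.Agent.MW.QuadChars
import Fermat.Agent.MW.Descent
import Fermat.Agent.TEll.Inputs

/-!
# The Mordell-Weil theorem for `JZero N` from its inputs
-/

set_option autoImplicit false

namespace Fermat.Agent.MW

open ModularCurve AlgebraicCurve

/-- Descent with a height which is not assumed to be nonnegative. -/
theorem fg_of_height {G : Type*} [AddCommGroup G]
    (h1 : (nsmulAddMonoidHom (α := G) 2).range.FiniteIndex)
    (h : G → ℝ) (C : ℝ) (hpar : ∀ x y, |h (x + y) + h (x - y) - 2 * (h x + h y)| ≤ C)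
    (hN : ∀ B : ℝ, {x | h x ≤ B}.Finite) : AddGroup.FG G := by
  obtain ⟨c, hc⟩ : ∃ c : ℝ, ∀ x, c ≤ h x := by
    by_cases hne : ({x | h x ≤ 0} : Set G).Nonempty
    · obtain ⟨g, hg, hmin⟩ := (hN 0).exists_minimalFor h _ hne
      refine ⟨h g, fun x => ?_⟩
      by_cases hx : h x ≤ 0
      · by_contra hlt
        push Not at hlt
        exact absurd (hmin hx hlt.le) (not_le.mpr hlt)
      · exact le_trans hg (le_of_lt (not_le.mp hx))
    · refine ⟨0, fun x => ?_⟩
      by_contra hx
      exact hne ⟨x, (not_le.mp hx).le⟩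
  have : Northcott (fun x => h x - c) := ⟨fun B => by
    refine (hN (B + c)).subset fun x hx => ?_
    have hx' : h x - c ≤ B := hx
    change h x ≤ B + c
    linarith⟩
  refine AddCommGroup.fg_of_descent' (h := fun x => h x - c) (C := C + |2 * c|) h1
    (fun x => by have := hc x; linarith) (fun x y => ?_)
  have h2 := hpar x y
  have h3 : h (x + y) - c + (h (x - y) - c) - 2 * (h x - c + (h y - c)) =
    (h (x + y) + h (x - y) - 2 * (h x + h y)) + 2 * c := by ring
  rw [h3]
  exact (abs_add_le _ _).trans (by linarith)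

variable (N : ℕ) [NeZero N]

theorem fg_of_inputs
    (hdiv : ∀ x : JZero N, ∃ y : JZero N, (2 : ℕ) • y = x)
    (htor : {x : JZero N | (2 : ℕ) • x = 0}.Finite)
    (S : Finset ℕ)
    (hin : ∀ ℓ : ℕ, ℓ.Prime → ℓ ∉ S → ∀ A : ValuationSubring (AlgebraicClosure ℚ),
      A.LiesOverPrime ℓ → ∀ σ ∈ A.inertiaSubgroupIn ℚ, ∀ x : JZero N,
        (2 : ℕ) • (σ • x - x) = 0 → σ • x = x)
    (h : JZero N → ℝ) (C : ℝ)
    (hpar : ∀ x ∈ FixedPoints.addSubgroup GQ (JZero N),
      ∀ y ∈ FixedPoints.addSubgroup GQ (JZero N),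
      |h (x + y) + h (x - y) - 2 * (h x + h y)| ≤ C)
    (hN : ∀ B : ℝ, {x | x ∈ FixedPoints.addSubgroup GQ (JZero N) ∧ h x ≤ B}.Finite) :
    AddGroup.FG ↥(FixedPoints.addSubgroup GQ (JZero N)) := by
  refine fg_of_height (weak_mordell_weil (fun K _ S => finite_quadChars K S) hdiv htor
    (fun x => exists_fixing_pic0 (modularFunctionFieldFull N) x) S hin)
    (fun x => h x) C (fun x y => hpar x x.2 y y.2) (fun B => ?_)
  refine Set.Finite.of_finite_image (f := Subtype.val) ((hN B).subset ?_)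
    Subtype.val_injective.injOn
  rintro _ ⟨x, hx, rfl⟩
  exact ⟨x.2, hx⟩

end Fermat.Agent.MW
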