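import Fermat.Agent.RedInj.RRAux
import Fermat.Prelude.Def_AlgebraicCurve_BaseChangeGalois

/-!
# Invariant divisor classes of degree zero contain invariant divisors
-/

set_option autoImplicit false

namespace Fermat.Agent.MW

open AlgebraicCurve Module
open Fermat.Agent.RR Fermat.Agent.FF Fermat.Agent.RedInj

variable {K F : Type*} [Field K] [Field F] [Algebra K F] [IsFF K F] [IsAlgClosed K]

theorem exists_minimal_effective (oo : Place K F) (D : Divisor K F)
    (hD0 : Divisor.degree D = 0) :
    ∃ (E : Divisor K F) (n : ℕ), 0 ≤ E ∧ Divisor.degree E = n ∧ n ≤ genusFF K F ∧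
      (E - (D + Finsupp.single oo (n : ℤ))).IsPrincipal ∧
      ∀ E' : Divisor K F, 0 ≤ E' → (E' - (D + Finsupp.single oo (n : ℤ))).IsPrincipal → E' = E := by
  classical
  have hex : ∃ n : ℕ, riemannRochSpace (D + Finsupp.single oo (n : ℤ)) ≠ ⊥ := by
    refine ⟨genusFF K F, fun h => ?_⟩
    have h1 := riemannRoch' (D + Finsupp.single oo (genusFF K F : ℤ))
    rw [map_add, hD0, degree_single_one] at h1
    have h2 : ell (D + Finsupp.single oo (genusFF K F : ℤ)) = 0 := by
      rw [ell, h, finrank_bot]
    rw [h2] at h1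
    push_cast at h1
    omega
  set n := Nat.find hex with hn
  have hnspec : riemannRochSpace (D + Finsupp.single oo (n : ℤ)) ≠ ⊥ := Nat.find_spec hex
  have hnle : n ≤ genusFF K F := Nat.find_min' hex (by
    intro h
    have h1 := riemannRoch' (D + Finsupp.single oo (genusFF K F : ℤ))
    rw [map_add, hD0, degree_single_one] at h1
    have h2 : ell (D + Finsupp.single oo (genusFF K F : ℤ)) = 0 := by
      rw [ell, h, finrank_bot]
    rw [h2] at h1
    push_cast at h1
    omega)
  have hmin : ∀ m < n, riemannRochSpace (D + Finsupp.single oo (m : ℤ)) = ⊥ := by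
    intro m hm
    by_contra h
    exact Nat.find_min hex hm h
  obtain ⟨f, hf, hf0⟩ := Submodule.exists_mem_ne_zero_of_ne_bot hnspec
  have hEf := (mem_riemannRochSpace_iff_div hf0).mp hf
  have hdeg : Divisor.degree (div f + (D + Finsupp.single oo (n : ℤ)) : Divisor K F) = n := by
    rw [map_add, map_add, degree_div, hD0, degree_single_one]; ring
  refine ⟨div f + (D + Finsupp.single oo (n : ℤ)), n, hEf, hdeg, hnle,
    ⟨f, hf0, fun v => ?_⟩, ?_⟩
  · rw [add_sub_cancel_right, div_apply]
  rintro E' hE' ⟨f', hf'0, hf'⟩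
  have hE'eq : E' = div f' + (D + Finsupp.single oo (n : ℤ)) := by
    ext v
    have := hf' v
    rw [Finsupp.sub_apply] at this
    rw [Finsupp.add_apply, div_apply]
    omega
  have hf'mem : f' ∈ riemannRochSpace (D + Finsupp.single oo (n : ℤ)) := by
    rw [mem_riemannRochSpace_iff_div hf'0, ← hE'eq]
    exact hE'
  rcases Nat.eq_zero_or_pos n with hn0 | hn0
  · -- degree zero effective divisors vanish
    have hzero : ∀ E : Divisor K F, 0 ≤ E → Divisor.degree E = 0 → E = 0 := by
      intro E hE hdE
      by_contra hne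
      obtain ⟨v, hv⟩ := Finsupp.ne_iff.mp hne
      have hv' : 0 < E v := lt_of_le_of_ne (hE v) (Ne.symm hv)
      have h1 : Finsupp.single v 1 ≤ E := by
        intro w
        by_cases hw : w = v
        · subst hw; rw [Finsupp.single_eq_same]; omega
        · rw [Finsupp.single_eq_of_ne hw]; exact hE w
      have h2 := degree_mono h1
      rw [degree_single_one, hdE] at h2
      omega
    have h1 : div f + (D + Finsupp.single oo (n : ℤ)) = (0 : Divisor K F) :=
      hzero _ hEf (by rw [hdeg, hn0]; rfl)
    rw [h1]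
    apply hzero _ hE'
    rw [hE'eq, map_add, map_add, degree_div, hD0, degree_single_one, hn0]
    simp
  · -- the space has dimension one
    have h1 : riemannRochSpace (D + Finsupp.single oo ((n - 1 : ℕ) : ℤ)) = ⊥ :=
      hmin (n - 1) (by omega)
    have h2 : D + Finsupp.single oo (n : ℤ) =
        D + Finsupp.single oo ((n - 1 : ℕ) : ℤ) + Finsupp.single oo 1 := by
      rw [add_assoc, ← Finsupp.single_add]
      congr 2
      omega
    have h3 := (step_L (D + Finsupp.single oo ((n - 1 : ℕ) : ℤ)) oo).2.1
    rw [← h2, h1, finrank_bot, deg_eq_one, zero_add] at h3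
    obtain ⟨c, hc⟩ : ∃ c : K, c • f = f' := by
      have h4 : Module.finrank K (riemannRochSpace (D + Finsupp.single oo (n : ℤ))) = 1 := by
        have h5 : Module.finrank K (riemannRochSpace (D + Finsupp.single oo (n : ℤ))) ≠ 0 := by
          intro h6
          exact hnspec (Submodule.finrank_eq_zero.mp h6)
        omega
      obtain ⟨c, hc⟩ := (finrank_eq_one_iff_of_nonzero' (⟨f, hf⟩ :
        riemannRochSpace (D + Finsupp.single oo (n : ℤ))) (fun h => hf0 (congrArg Subtype.val h))).mp
        h4 ⟨f', hf'mem⟩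
      exact ⟨c, congrArg Subtype.val hc⟩
    have hc0 : c ≠ 0 := by
      rintro rfl
      rw [zero_smul] at hc
      exact hf'0 hc.symm
    rw [hE'eq, ← hc]
    congr 1
    ext v
    rw [div_apply, div_apply, Algebra.smul_def, v.ord_mul ((map_ne_zero _).mpr hc0) hf0]
    have : v.ord (algebraMap K F c) = 0 := by
      exact ord_algebraMap v c
    rw [this, zero_add]

/-- Invariant classes of degree zero contain the difference of an invariant effective divisor and a
multiple of the fixed place. -/
theorem exists_fixed_effective {G : Type*} [Group G] (act : G →* SemilinearAut K F)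
    (oo : Place K F) (hoo : ∀ g, act g • oo = oo) (D : Divisor K F)
    (hD0 : Divisor.degree D = 0) (hD : ∀ g, (act g • D - D).IsPrincipal) :
    ∃ (E : Divisor K F) (n : ℕ), 0 ≤ E ∧ Divisor.degree E = n ∧ n ≤ genusFF K F ∧
      (∀ g, act g • E = E) ∧ (E - (D + Finsupp.single oo (n : ℤ))).IsPrincipal ∧
      ∀ E' : Divisor K F, 0 ≤ E' → (E' - (D + Finsupp.single oo (n : ℤ))).IsPrincipal → E' = E := by
  obtain ⟨E, n, hE, hdeg, hn, hprin, huniq⟩ := exists_minimal_effective oo D hD0
  refine ⟨E, n, hE, hdeg, hn, fun g => huniq _ ?_ ?_, hprin, huniq⟩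
  · intro v
    rw [SemilinearAut.divisor_smul_apply]
    exact hE _
  · have h1 : act g • (E - (D + Finsupp.single oo (n : ℤ))) =
        act g • E - (act g • D + Finsupp.single oo (n : ℤ)) := by
      rw [smul_sub, smul_add, SemilinearAut.smul_single, hoo]
    have h2 : (act g • (E - (D + Finsupp.single oo (n : ℤ)))).IsPrincipal :=
      SemilinearAut.smul_mem_principal (act g) hprin
    rw [h1] at h2
    have h3 := (Divisor.principal (K := K) (F := F)).add_mem h2 (hD g)
    have h4 : act g • E - (act g • D + Finsupp.single oo (n : ℤ)) + (act g • D - D) =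
        act g • E - (D + Finsupp.single oo (n : ℤ)) := by abel
    rw [h4] at h3
    exact h3

/-- The same for a class in `Pic0`. -/
theorem exists_fixed_effective_pic0 {G : Type*} [Group G] (act : G →* SemilinearAut K F)
    (oo : Place K F) (hoo : ∀ g, act g • oo = oo) (x : Pic0 K F) (hx : ∀ g, act g • x = x) :
    ∃ (E : Divisor K F) (n : ℕ) (hE : E - Finsupp.single oo (n : ℤ) ∈ Divisor.degZero),
      0 ≤ E ∧ Divisor.degree E = n ∧ n ≤ genusFF K F ∧
      (∀ g, act g • E = E) ∧ x = Pic0.mk ⟨E - Finsupp.single oo (n : ℤ), hE⟩ := by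
  obtain ⟨⟨D, hD0⟩, rfl⟩ := Pic0.mk_surjective x
  have hD : ∀ g, (act g • D - D).IsPrincipal := by
    intro g
    have h1 := hx g
    rw [SemilinearAut.pic0_smul_mk] at h1
    have h2 := (QuotientAddGroup.eq (s := (Divisor.principal (K := K) (F := F)).addSubgroupOf
      (Divisor.degZero (K := K) (F := F)))).mp h1.symm
    rw [AddSubgroup.mem_addSubgroupOf] at h2
    have h3 : ((-⟨D, hD0⟩ + SemilinearAut.degZeroSMulHom (act g) ⟨D, hD0⟩ :
      Divisor.degZero (K := K) (F := F)) : Divisor K F) = act g • D - D := by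
      rw [AddSubgroup.coe_add, AddSubgroup.coe_neg, SemilinearAut.coe_degZeroSMulHom]
      abel
    rw [h3] at h2
    exact h2
  obtain ⟨E, n, hE, hdeg, hn, hfix, hprin, -⟩ := exists_fixed_effective act oo hoo D hD0 hD
  have hmem : E - Finsupp.single oo (n : ℤ) ∈ Divisor.degZero (K := K) (F := F) := by
    rw [Divisor.mem_degZero, map_sub, hdeg, degree_single_one, sub_self]
  refine ⟨E, n, hmem, hE, hdeg, hn, hfix, ?_⟩
  apply (QuotientAddGroup.eq (s := (Divisor.principal (K := K) (F := F)).addSubgroupOf
      (Divisor.degZero (K := K) (F := F)))).mpr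
  rw [AddSubgroup.mem_addSubgroupOf]
  have h3 : ((-⟨D, hD0⟩ + ⟨E - Finsupp.single oo (n : ℤ), hmem⟩ :
      Divisor.degZero (K := K) (F := F)) : Divisor K F) = E - (D + Finsupp.single oo (n : ℤ)) := by
    rw [AddSubgroup.coe_add, AddSubgroup.coe_neg]
    abel
  rw [h3]
  exact hprin

end Fermat.Agent.MW
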