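import Fermat.Agent.Heights.Final
import Fermat.Agent.Heights.FixedChart
import Fermat.Agent.MW.Cusp
import Fermat.Agent.MW.FixedDiv

/-!
# The height on `JZero N`
-/

set_option autoImplicit false

namespace Fermat.Agent.MW

open ModularCurve AlgebraicCurve Fermat.Agent.Heights
open Fermat.Agent.Frob (GQ)

variable (N : ℕ) [NeZero N]

/-- A quadratic height with the Northcott property on the fixed points of `JZero N`. -/
theorem exists_height_JZero :
    ∃ (h : JZero N → ℝ) (C : ℝ),
      (∀ x ∈ FixedPoints.addSubgroup GQ (JZero N), ∀ y ∈ FixedPoints.addSubgroup GQ (JZero N),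
        |h (x + y) + h (x - y) - 2 * (h x + h y)| ≤ C) ∧
      ∀ B : ℝ, {x | x ∈ FixedPoints.addSubgroup GQ (JZero N) ∧ h x ≤ B}.Finite := by
  have : RRCurve (AlgebraicClosure ℚ) (modularFunctionFieldBar N) := RRCurve.of_isFF
  let act : (AlgebraicClosure ℚ ≃ₐ[ℚ] AlgebraicClosure ℚ) →*
      SemilinearAut (AlgebraicClosure ℚ) (modularFunctionFieldBar N) :=
    arithmeticGalois (modularFunctionFieldFull N)
  let M : ℕ := 40 * genusFF (AlgebraicClosure ℚ) (modularFunctionFieldBar N) + 40
  obtain ⟨ch, hch⟩ := exists_fixed_chart act (cuspInf N) M (span_fixed_cuspInf N M)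
  obtain ⟨h, C, h1, h2⟩ := exists_height act ch hch (fun τ => by
      refine ⟨AlgEquiv.ofRingEquiv (f := τ) (fun q => ?_), ?_⟩
      · rw [eq_ratCast, map_ratCast]
      · rw [baseAut_arithmeticGalois]
        ext x
        rfl) (smul_cuspInf N) le_rfl (fun P hP => by
      obtain ⟨D, n, hD, hD0, hDn, hn, hfix, hP'⟩ := exists_fixed_effective_pic0 act (cuspInf N)
        (smul_cuspInf N) P hP
      refine ⟨D - Finsupp.single (cuspInf N) (n : ℤ), fun g => ?_, ?_, hD, hP'.symm⟩
      · rw [smul_sub, hfix, SemilinearAut.smul_single, smul_cuspInf]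
      · calc (Finsupp.single (cuspInf N)
              (-(genusFF (AlgebraicClosure ℚ) (modularFunctionFieldBar N) : ℤ)) :
                Divisor (AlgebraicClosure ℚ) (modularFunctionFieldBar N))
            ≤ Finsupp.single (cuspInf N) (-(n : ℤ)) := single_le_single (by omega)
          _ = 0 - Finsupp.single (cuspInf N) (n : ℤ) := by rw [zero_sub, Finsupp.single_neg]
          _ ≤ _ := sub_le_sub_right hD0 _)
  exact ⟨h, C, fun x hx y hy => h1 x y hx hy, fun B => h2 B⟩

end Fermat.Agent.MW
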