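import Mathlib
import Fermat.Agent.CFT.SUnits

/-!
# Finiteness of the 2-Selmer group of a number field
-/

set_option autoImplicit false

namespace Fermat.Agent.MW

open NumberField IsDedekindDomain Fermat.Agent.CFT
open Fermat.Agent.CFT.SUnits (ord div idealOf div_apply exists_div_eq_iff div_eq_zero_iff idealOf_add)

/-- Let `S` be a finite set of primes of the number field `K`. The elements of `Kˣ` having even
valuation outside `S` fall in finitely many square classes. -/
theorem exists_finite_reps (K : Type*) [Field K] [NumberField K]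
    (S : Set (HeightOneSpectrum (𝓞 K))) (hS : S.Finite) :
    ∃ F : Set Kˣ, F.Finite ∧ ∀ a : Kˣ, (∀ v ∉ S, (2 : ℤ) ∣ ord v a) →
      ∃ f ∈ F, ∃ c : Kˣ, a = f * c ^ 2 := by
  classical
  -- representatives of units
  obtain ⟨U, hU, hUs⟩ : ∃ U : Set (𝓞 K)ˣ, U.Finite ∧ ∀ u : (𝓞 K)ˣ, ∃ w ∈ U, ∃ c, u = w * c ^ 2 := by
    have h1 : (powMonoidHom (α := (𝓞 K)ˣ) 2).range.FiniteIndex := by
      have hfg : Group.FG (𝓞 K)ˣ := by
        rw [Group.fg_iff_monoid_fg]
        exact inferInstance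
      exact Subgroup.finiteIndex_range_powMonoidHom_of_fg _ two_ne_zero
    have h2 : Finite ((𝓞 K)ˣ ⧸ (powMonoidHom (α := (𝓞 K)ˣ) 2).range) := inferInstance
    refine ⟨Set.range (fun q : (𝓞 K)ˣ ⧸ (powMonoidHom (α := (𝓞 K)ˣ) 2).range => q.out),
      Set.finite_range _, fun u => ⟨_, ⟨(u : (𝓞 K)ˣ ⧸ (powMonoidHom (α := (𝓞 K)ˣ) 2).range), rfl⟩,
      ?_⟩⟩
    have h3 := QuotientGroup.out_eq' (u : (𝓞 K)ˣ ⧸ (powMonoidHom (α := (𝓞 K)ˣ) 2).range)
    rw [QuotientGroup.eq] at h3
    obtain ⟨c, hc⟩ := h3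
    refine ⟨c, ?_⟩
    change c ^ 2 = _ at hc
    rw [hc]
    simp
  -- the half divisor
  let E : Kˣ → (HeightOneSpectrum (𝓞 K) →₀ ℤ) := fun a =>
    (div (R := 𝓞 K) a).mapRange (fun n : ℤ => n / 2) (by norm_num)
  have hE : ∀ a v, (E a) v = ord v a / 2 := fun a v => by
    simp [E, Finsupp.mapRange_apply]
  let φ : Kˣ → (S → ZMod 2) × ClassGroup (𝓞 K) := fun a =>
    (fun v => (ord v.1 a : ZMod 2), ClassGroup.mk K (idealOf K (E a)))
  have : Finite S := hS.to_subtype
  have hfin : Finite ((S → ZMod 2) × ClassGroup (𝓞 K)) := inferInstance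
  let X : Set Kˣ := {a | ∀ v ∉ S, (2 : ℤ) ∣ ord v a}
  -- representatives
  let Y : Set ((S → ZMod 2) × ClassGroup (𝓞 K)) := φ '' X
  have hYX : ∀ y : Y, ∃ a ∈ X, φ a = y := fun y => y.2
  choose g hgX hgφ using hYX
  refine ⟨Set.range (fun p : Y × U => g p.1 * Units.map (algebraMap (𝓞 K) K : 𝓞 K →* K) p.2.1),
    ?_, ?_⟩
  · have : Finite U := hU.to_subtype
    exact Set.finite_range _
  · intro a ha
    let y : Y := ⟨φ a, a, ha, rfl⟩
    have hφ : φ (g y) = φ a := hgφ y
    have h1 : ∀ v : S, (ord v.1 (g y) : ZMod 2) = (ord v.1 a : ZMod 2) := fun v =>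
      congrFun (congrArg Prod.fst hφ) v
    have h2 : ClassGroup.mk K (idealOf K (E (g y))) = ClassGroup.mk K (idealOf K (E a)) :=
      congrArg Prod.snd hφ
    have h3 : ClassGroup.mk K (idealOf K (E a - E (g y))) = 1 := by
      have h4 : idealOf K (E a) = idealOf K (E a - E (g y)) * idealOf K (E (g y)) := by
        rw [← idealOf_add, sub_add_cancel]
      rw [h4, map_mul] at h2
      exact (mul_eq_right.mp h2.symm)
    obtain ⟨c, hc⟩ := (exists_div_eq_iff K _).mpr h3
    have h5 : div (R := 𝓞 K) (a * (g y)⁻¹ * (c⁻¹) ^ 2) = 0 := by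
      ext v
      have h6 := DFunLike.congr_fun hc v
      rw [div_apply, Finsupp.sub_apply, hE, hE] at h6
      rw [SUnits.div_mul, SUnits.div_mul, SUnits.div_inv, SUnits.div_pow, SUnits.div_inv, Finsupp.add_apply, Finsupp.add_apply,
        Finsupp.neg_apply, Finsupp.smul_apply, Finsupp.neg_apply, div_apply, div_apply, div_apply,
        h6, Finsupp.zero_apply]
      by_cases hv : v ∈ S
      · have h7 := h1 ⟨v, hv⟩
        rw [ZMod.intCast_eq_intCast_iff_dvd_sub] at h7
        simp only [nsmul_eq_mul]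
        push_cast at h7 ⊢
        omega
      · have h7 := ha v hv
        have h8 := hgX y v hv
        simp only [nsmul_eq_mul]
        push_cast
        omega
    obtain ⟨u, hu⟩ := (div_eq_zero_iff K _).mp h5
    obtain ⟨w, hw, d, hd⟩ := hUs u
    refine ⟨_, ⟨⟨y, ⟨w, hw⟩⟩, rfl⟩, c * Units.map (algebraMap (𝓞 K) K : 𝓞 K →* K) d, ?_⟩
    have h9 : a = g y * c ^ 2 * Units.map (algebraMap (𝓞 K) K : 𝓞 K →* K) u := by
      rw [hu]
      apply Units.ext
      push_cast
      have hg0 : (g y : K) ≠ 0 := (g y).ne_zero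
      have hc0 : (c : K) ≠ 0 := c.ne_zero
      field_simp
    rw [h9, hd, map_mul, map_pow]
    apply Units.ext
    push_cast
    ring

end Fermat.Agent.MW
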