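import Mathlib
import Fermat.Agent.CFT.SUnits

/-!
# An element fixed by the inertia group has valuation divisible by the ramification index
-/

set_option autoImplicit false

namespace Fermat.Agent.MW

open NumberField IsDedekindDomain Fermat.Agent.CFT
open Fermat.Agent.CFT.SUnits (ord)
open scoped Pointwise

variable {K F : Type*} [Field K] [NumberField K] [Field F] [NumberField F] [Algebra K F]
  [IsGalois K F]

/-- If the inertia group of `P` fixes the intermediate field `M`, then `M/K` is unramified at the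
prime below `P`. -/
theorem ramificationIdx_eq_one_of_inertia_fixes (M : IntermediateField K F)
    (P : Ideal (𝓞 F)) [P.IsMaximal]
    (hM : ∀ τ ∈ P.inertia (F ≃ₐ[K] F), ∀ x ∈ M, τ x = x) :
    (P.under (𝓞 M)).ramificationIdx (𝓞 K) = 1 := by
  have h1 := Ideal.card_inertia_eq_ramificationIdxIn (G := F ≃ₐ[K] F) (P.under (𝓞 K)) P
  rw [Ideal.ramificationIdxIn_eq_ramificationIdx (P.under (𝓞 K)) P (F ≃ₐ[K] F)] at h1
  have h2 := Ideal.card_inertia_eq_ramificationIdxIn (G := F ≃ₐ[M] F) (P.under (𝓞 M)) P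
  rw [Ideal.ramificationIdxIn_eq_ramificationIdx (P.under (𝓞 M)) P (F ≃ₐ[M] F)] at h2
  have h3 : Nat.card (P.inertia (F ≃ₐ[K] F)) = Nat.card (P.inertia (F ≃ₐ[M] F)) := by
    refine Nat.card_congr ?_
    refine ⟨fun τ => ⟨{ τ.1 with commutes' := fun x => hM τ.1 τ.2 x x.2 }, fun x => τ.2 x⟩,
      fun τ => ⟨τ.1.restrictScalars K, fun x => τ.2 x⟩, fun τ => ?_, fun τ => ?_⟩
    · apply Subtype.ext
      ext x
      rfl
    · apply Subtype.ext
      ext x
      rfl
  have h4 := Ideal.ramificationIdx_tower (R := 𝓞 K) (S := 𝓞 M) (T := 𝓞 F)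
    (q := P.under (𝓞 M)) (r := P)
  rw [← h1, ← h2, h3] at h4
  have h5 : 0 < Nat.card (P.inertia (F ≃ₐ[M] F)) := Nat.card_pos
  have h6 : (P.under (𝓞 M)).ramificationIdx (𝓞 K) * Nat.card (P.inertia (F ≃ₐ[M] F)) =
      1 * Nat.card (P.inertia (F ≃ₐ[M] F)) := by
    rw [← h4, one_mul]
  exact Nat.eq_of_mul_eq_mul_right h5 h6

theorem even_ord_of_inertia_fixes (v : HeightOneSpectrum (𝓞 K))
    (P : Ideal (𝓞 F)) [P.IsMaximal] [P.LiesOver v.asIdeal] (y : F)
    (hy : ∀ τ ∈ P.inertia (F ≃ₐ[K] F), τ y = y) (a : Kˣ) (hya : y ^ 2 = algebraMap K F a) :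
    (2 : ℤ) ∣ ord v a := by
  let M : IntermediateField K F := IntermediateField.adjoin K {y}
  have hM : ∀ τ ∈ P.inertia (F ≃ₐ[K] F), ∀ x ∈ M, τ x = x := by
    intro τ hτ x hx
    have h1 : M ≤ IntermediateField.fixedField (Subgroup.zpowers τ) := by
      rw [IntermediateField.adjoin_le_iff, Set.singleton_subset_iff]
      rintro ⟨g, hg⟩
      have h2 : Subgroup.zpowers τ ≤ MulAction.stabilizer (F ≃ₐ[K] F) y := by
        rw [Subgroup.zpowers_le]
        exact hy τ hτ
      exact h2 hg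
    exact h1 hx ⟨τ, Subgroup.mem_zpowers τ⟩
  have he := ramificationIdx_eq_one_of_inertia_fixes M P hM
  have hyM : y ∈ M := IntermediateField.mem_adjoin_simple_self K y
  let q : Ideal (𝓞 M) := P.under (𝓞 M)
  have hqv : q.LiesOver v.asIdeal := inferInstance
  have hq0 : q ≠ ⊥ := by
    intro h
    have h1 : v.asIdeal = q.under (𝓞 K) := Ideal.LiesOver.over
    rw [h] at h1
    apply v.ne_bot
    rw [h1]
    exact Ideal.comap_bot_of_injective _ (FaithfulSMul.algebraMap_injective (𝓞 K) (𝓞 M))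
  let w : HeightOneSpectrum (𝓞 M) := ⟨q, inferInstance, hq0⟩
  have hwv : w.asIdeal.LiesOver v.asIdeal := hqv
  have h1 := HeightOneSpectrum.valuation_liesOver (K := K) M v w (a : K)
  have h2 : v.asIdeal.ramificationIdx' w.asIdeal = 1 := by
    rw [Ideal.ramificationIdx'_eq_ramificationIdx _ _ v.ne_bot]
    exact he
  rw [h2, pow_one] at h1
  have hy0 : y ≠ 0 := by
    rintro rfl
    have h3 : algebraMap K F a = 0 := by rw [← hya]; simp
    exact a.ne_zero ((map_eq_zero _).mp h3)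
  let y' : Mˣ := Units.mk0 ⟨y, hyM⟩ (fun h => hy0 (congrArg Subtype.val h))
  have h4 : algebraMap K M a = (y' : M) ^ 2 := by
    apply Subtype.ext
    rw [SubmonoidClass.coe_pow]
    exact hya.symm
  rw [h4, map_pow, SUnits.valuation_eq_exp_neg_ord, SUnits.valuation_eq_exp_neg_ord,
    ← WithZero.exp_nsmul, WithZero.exp_inj] at h1
  refine ⟨ord w y', ?_⟩
  simp only [nsmul_eq_mul] at h1
  push_cast at h1
  linarith

end Fermat.Agent.MW
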