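import Mathlib
import Fermat.Agent.Frob.Exists

/-!
# The weak Mordell-Weil argument (abstract form)

`J` is an abelian group with an action of the absolute Galois group `GQ` of `ℚ`. We assume
* `J` is 2-divisible with finite 2-torsion,
* stabilisers are open,
* unramifiedness of division points outside a finite set of primes,
* finiteness of the set of quadratic characters of open subgroups unramified outside a finite set.

Conclusion: the subgroup `2 Γ` of `Γ = J^GQ` has finite index.
-/

set_option autoImplicit false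

namespace Fermat.Agent.MW

/-- The absolute Galois group of `ℚ`. -/
abbrev GQ : Type := AlgebraicClosure ℚ ≃ₐ[ℚ] AlgebraicClosure ℚ

/-- Additive characters with values in `ZMod 2` of the Galois group of `K`, locally constant and
unramified outside the finite set `S`. -/
def quadChars (K : IntermediateField ℚ (AlgebraicClosure ℚ)) (S : Finset ℕ) :
    Set (K.fixingSubgroup → ZMod 2) :=
  {χ | (∀ σ τ, χ (σ * τ) = χ σ + χ τ) ∧
    (∃ L : IntermediateField ℚ (AlgebraicClosure ℚ), FiniteDimensional ℚ L ∧
      ∀ σ : K.fixingSubgroup, (σ : GQ) ∈ L.fixingSubgroup → χ σ = 0) ∧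
    ∀ ℓ : ℕ, ℓ.Prime → ℓ ∉ S → ∀ A : ValuationSubring (AlgebraicClosure ℚ),
      A.LiesOverPrime ℓ → ∀ σ : K.fixingSubgroup, (σ : GQ) ∈ A.inertiaSubgroupIn ℚ → χ σ = 0}

section Abstract

variable {J : Type*} [AddCommGroup J] [DistribMulAction GQ J]

/-- A finite set of elements with open stabilisers is fixed by the Galois group of a single
finite Galois extension. -/
theorem exists_galois_fixing
    (hopen : ∀ x : J, ∃ K : IntermediateField ℚ (AlgebraicClosure ℚ), FiniteDimensional ℚ K ∧
      ∀ σ ∈ K.fixingSubgroup, σ • x = x) {T : Set J} (hT : T.Finite) :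
    ∃ K : IntermediateField ℚ (AlgebraicClosure ℚ), FiniteDimensional ℚ K ∧ Normal ℚ K ∧
      ∀ σ ∈ K.fixingSubgroup, ∀ x ∈ T, σ • x = x := by
  have h1 : ∃ K : IntermediateField ℚ (AlgebraicClosure ℚ), FiniteDimensional ℚ K ∧
      ∀ σ ∈ K.fixingSubgroup, ∀ x ∈ T, σ • x = x := by
    induction T, hT using Set.Finite.induction_on with
    | empty => exact ⟨⊥, inferInstance, by simp⟩
    | @insert a s _ _ ih =>
      obtain ⟨K₁, hK₁, h₁⟩ := ih
      obtain ⟨K₂, hK₂, h₂⟩ := hopen a
      refine ⟨K₁ ⊔ K₂, IntermediateField.finiteDimensional_sup K₁ K₂, fun σ hσ x hx => ?_⟩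
      rw [IntermediateField.fixingSubgroup_sup] at hσ
      rcases hx with rfl | hx
      · exact h₂ σ hσ.2
      · exact h₁ σ hσ.1 x hx
  obtain ⟨K, hK, h⟩ := h1
  refine ⟨IntermediateField.normalClosure ℚ K (AlgebraicClosure ℚ), inferInstance,
    normalClosure.normal ℚ K (AlgebraicClosure ℚ), fun σ hσ => h σ ?_⟩
  exact IntermediateField.fixingSubgroup_antitone (IntermediateField.le_normalClosure K) hσ

theorem weak_mordell_weil
    (hchar : ∀ (K : IntermediateField ℚ (AlgebraicClosure ℚ)) [FiniteDimensional ℚ K]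
      (S : Finset ℕ), (quadChars K S).Finite)
    (hdiv : ∀ x : J, ∃ y : J, (2 : ℕ) • y = x)
    (htor : {x : J | (2 : ℕ) • x = 0}.Finite)
    (hopen : ∀ x : J, ∃ K : IntermediateField ℚ (AlgebraicClosure ℚ), FiniteDimensional ℚ K ∧
      ∀ σ ∈ K.fixingSubgroup, σ • x = x)
    (S : Finset ℕ)
    (hin : ∀ ℓ : ℕ, ℓ.Prime → ℓ ∉ S → ∀ A : ValuationSubring (AlgebraicClosure ℚ),
      A.LiesOverPrime ℓ → ∀ σ ∈ A.inertiaSubgroupIn ℚ, ∀ x : J,
        (2 : ℕ) • (σ • x - x) = 0 → σ • x = x) :
    (nsmulAddMonoidHom (α := FixedPoints.addSubgroup GQ J) 2).range.FiniteIndex := by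
  classical
  set T : AddSubgroup J := (nsmulAddMonoidHom (α := J) 2).ker with hTdef
  have hTmem : ∀ x : J, x ∈ T ↔ (2 : ℕ) • x = 0 := fun x => by
    rw [hTdef, AddMonoidHom.mem_ker]; rfl
  have hTfin : Finite T := by
    have : (T : Set J) = {x : J | (2 : ℕ) • x = 0} := by
      ext x; exact hTmem x
    rw [← this] at htor
    exact htor.to_subtype
  obtain ⟨K, hK, hKn, hKT⟩ := exists_galois_fixing hopen htor
  let H : Subgroup GQ := K.fixingSubgroup
  -- `ZMod 2`-module structure on `T`
  let _ : Module (ZMod 2) T := AddCommGroup.zmodModule (n := 2) (fun x => by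
    apply Subtype.ext
    rw [AddSubgroup.coe_nsmul]
    exact (hTmem x.1).mp x.2)
  -- halves
  choose half hhalf using hdiv
  -- the cocycle
  have hc : ∀ (x : FixedPoints.addSubgroup GQ J) (σ : GQ),
      σ • half x - half x ∈ T := by
    intro x σ
    rw [hTmem, smul_sub, ← smul_comm σ (2 : ℕ) (half x.1), hhalf]
    have : σ • (x : J) = x := x.2 σ
    rw [this, sub_self]
  let c : FixedPoints.addSubgroup GQ J → GQ → T := fun x σ => ⟨σ • half x - half x, hc x σ⟩
  have hcmul : ∀ x σ τ, ((c x (σ * τ) : T) : J) = σ • ((c x τ : T) : J) + c x σ := by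
    intro x σ τ
    simp only [c]
    rw [mul_smul, smul_sub]
    abel
  -- restriction to `H` is a homomorphism
  have hcH : ∀ (x) (σ τ : H), c x ((σ : GQ) * τ) = c x σ + c x τ := by
    intro x σ τ
    apply Subtype.ext
    rw [hcmul]
    have : (σ : GQ) • ((c x τ : T) : J) = c x τ := hKT σ σ.2 _ ((hTmem _).mp (c x τ).2)
    rw [this, AddSubgroup.coe_add, add_comm]
  -- the finite set of restricted cocycles
  let R : Set (H → T) := {φ | ∀ f : T →ₗ[ZMod 2] ZMod 2, (fun σ => f (φ σ)) ∈ quadChars K S}
  have hRfin : R.Finite := by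
    have hfinDual : Finite (T →ₗ[ZMod 2] ZMod 2) :=
      Finite.of_injective (fun f : T →ₗ[ZMod 2] ZMod 2 => (f : T → ZMod 2))
        DFunLike.coe_injective
    have h1 : (Set.pi Set.univ (fun _ : (T →ₗ[ZMod 2] ZMod 2) => quadChars K S)).Finite :=
      Set.Finite.pi (fun _ => hchar K S)
    refine Set.Finite.of_finite_image (f := fun (φ : H → T) (f : T →ₗ[ZMod 2] ZMod 2) =>
      (fun σ => f (φ σ))) (h1.subset ?_) ?_
    · rintro _ ⟨φ, hφ, rfl⟩
      intro f _
      exact hφ f
    · intro φ _ ψ _ h
      funext σ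
      rw [← sub_eq_zero]
      rw [← Module.forall_dual_apply_eq_zero_iff (ZMod 2)]
      intro f
      have := congrFun (congrFun h f) σ
      simp only at this
      rw [map_sub, this, sub_self]
  have hcR : ∀ x, (fun σ : H => c x σ) ∈ R := by
    intro x f
    refine ⟨fun σ τ => ?_, ?_, ?_⟩
    · change f (c x ((σ : GQ) * τ)) = f (c x σ) + f (c x τ)
      rw [hcH, map_add]
    · obtain ⟨L, hL, hLx⟩ := hopen (half x)
      refine ⟨L, hL, fun σ hσ => ?_⟩
      have : c x σ = 0 := by
        apply Subtype.ext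
        simp only [c, hLx _ hσ, sub_self]
        rfl
      change f (c x σ) = 0
      rw [this, map_zero]
    · intro ℓ hℓ hS A hA σ hσ
      have : c x σ = 0 := by
        apply Subtype.ext
        have := hin ℓ hℓ hS A hA σ hσ (half x) ((hTmem _).mp (hc x σ))
        simp only [c, this, sub_self]
        rfl
      change f (c x σ) = 0
      rw [this, map_zero]
  -- coset representatives
  have : FiniteDimensional ℚ K := hK
  have hHopen : IsOpen (H : Set GQ) := IntermediateField.fixingSubgroup_isOpen K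
  have : Finite (GQ ⧸ H) := Subgroup.quotient_finite_of_isOpen H hHopen
  let rep : GQ ⧸ H → GQ := fun q => q.out
  -- the full invariant
  let inv : FixedPoints.addSubgroup GQ J → R × (GQ ⧸ H → T) :=
    fun x => (⟨fun σ : H => c x σ, hcR x⟩, fun q => c x (rep q))
  have hinv : ∀ x y, inv x = inv y → x - y ∈ (nsmulAddMonoidHom
      (α := FixedPoints.addSubgroup GQ J) 2).range := by
    intro x y hxy
    have h1 : ∀ σ : H, c x σ = c y σ := fun σ =>
      congrFun (congrArg Subtype.val (congrArg Prod.fst hxy)) σ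
    have h2 : ∀ q : GQ ⧸ H, c x (rep q) = c y (rep q) := fun q =>
      congrFun (congrArg Prod.snd hxy) q
    have h3 : ∀ σ : GQ, c x σ = c y σ := by
      intro σ
      obtain ⟨τ, hτ⟩ : ∃ τ : H, σ = rep (σ : GQ ⧸ H) * τ := by
        refine ⟨⟨(rep (σ : GQ ⧸ H))⁻¹ * σ, ?_⟩, by simp⟩
        rw [← QuotientGroup.eq]
        exact QuotientGroup.out_eq' _
      apply Subtype.ext
      rw [hτ, hcmul, hcmul, h1, h2]
    have h4 : ∀ σ : GQ, σ • (half x - half y) = half x - half y := by
      intro σ
      have := congrArg Subtype.val (h3 σ)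
      simp only [c] at this
      rw [smul_sub]
      rw [sub_eq_sub_iff_add_eq_add] at this ⊢
      rw [this, add_comm]
    refine ⟨⟨half x - half y, h4⟩, ?_⟩
    apply Subtype.ext
    change (2 : ℕ) • (half (x : J) - half (y : J)) = (x : J) - y
    rw [smul_sub, hhalf, hhalf]
  have : Finite R := hRfin.to_subtype
  have hfinq : Finite (FixedPoints.addSubgroup GQ J ⧸
      (nsmulAddMonoidHom (α := FixedPoints.addSubgroup GQ J) 2).range) := by
    refine Finite.of_injective (fun q => inv q.out) ?_
    intro q q' h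
    have := hinv _ _ h
    have h5 : (QuotientAddGroup.mk (Quotient.out q) : FixedPoints.addSubgroup GQ J ⧸
      (nsmulAddMonoidHom (α := FixedPoints.addSubgroup GQ J) 2).range) =
      QuotientAddGroup.mk (Quotient.out q') := by
      rw [QuotientAddGroup.eq]
      have h6 := neg_mem this
      rw [neg_sub, sub_eq_neg_add] at h6
      exact h6
    rw [QuotientAddGroup.out_eq', QuotientAddGroup.out_eq'] at h5
    exact h5
  exact AddSubgroup.finiteIndex_of_finite_quotient

end Abstract

end Fermat.Agent.MW
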