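import Mathlib
import Fermat.Agent.MW.Weak
import Fermat.Agent.MW.Selmer
import Fermat.Agent.MW.EvenVal
import Fermat.Agent.Minkowski.Trivial

/-!
# Finiteness of the set of quadratic characters unramified outside a finite set
-/

set_option autoImplicit false

namespace Fermat.Agent.MW

open NumberField IsDedekindDomain Fermat.Agent.CFT
open Fermat.Agent.CFT.SUnits (ord)
open Fermat.Agent.Frob (Zbar centre mem_centre_iff natCast_mem_centre)
open Fermat.Agent.Minkowski (incl coe_incl)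
open scoped Pointwise

/-- Every prime of a number field is the centre of a valuation of `ℚ̄`. -/
theorem exists_valuationSubring_of_prime (K : IntermediateField ℚ (AlgebraicClosure ℚ))
    [FiniteDimensional ℚ K] (v : Ideal (𝓞 K)) [hv : v.IsMaximal] :
    ∃ A : ValuationSubring (AlgebraicClosure ℚ), (centre A).comap (incl K) = v ∧
      ∀ ℓ : ℕ, (ℓ : 𝓞 K) ∈ v → A.LiesOverPrime ℓ := by
  let algR : Algebra (𝓞 K) Zbar := (incl K).toAlgebra
  have hint : (incl K).IsIntegral := by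
    intro x
    have h1 : IsIntegral ℤ x := by
      have h2 : IsIntegral ℤ (x : AlgebraicClosure ℚ) := x.2
      exact (isIntegral_algHom_iff (Subalgebra.val Zbar) Subtype.coe_injective).mp h2
    obtain ⟨f, hf, hfx⟩ := h1
    refine ⟨f.map (algebraMap ℤ (𝓞 K)), hf.map _, ?_⟩
    rw [Polynomial.eval₂_map, ← hfx]
    congr 1
  have hinj : Function.Injective (incl K) := by
    intro x y h
    have h1 := congrArg (fun z : Zbar => (z : AlgebraicClosure ℚ)) h
    simp only [coe_incl] at h1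
    exact RingOfIntegers.ext (Subtype.ext h1)
  have hI : Algebra.IsIntegral (𝓞 K) Zbar := ⟨hint⟩
  obtain ⟨Q, hQ, hQv⟩ := Ideal.exists_ideal_over_maximal_of_isIntegral (S := Zbar) v (by
    rw [(RingHom.injective_iff_ker_eq_bot (algebraMap (𝓞 K) Zbar)).mp hinj]
    exact bot_le)
  obtain ⟨B, hB, hB2⟩ := Ideal.image_subset_nonunits_valuationSubring
    (A := Zbar.toSubring) Q hQ.ne_top
  have hle : v ≤ (centre B).comap (incl K) := by
    intro x hx
    have h1 : incl K x ∈ Q := by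
      rw [← hQv] at hx
      exact hx
    rw [Ideal.mem_comap, mem_centre_iff]
    exact hB2 ⟨incl K x, h1, rfl⟩
  refine ⟨B, ?_, ?_⟩
  · symm
    refine hv.eq_of_le ?_ hle
    exact (Ideal.comap_isPrime (incl K) (centre B)).ne_top
  · intro ℓ hℓ
    have h1 := hle hℓ
    rw [Ideal.mem_comap, map_natCast, mem_centre_iff] at h1
    simpa [ValuationSubring.LiesOverPrime] using h1

/-- Let `a = y ^ 2 ∈ K`. If `y` is fixed by the elements of the inertia groups above `v` which fix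
`K` then `v a` is even. -/
theorem even_ord_of_inertia (K : IntermediateField ℚ (AlgebraicClosure ℚ))
    [FiniteDimensional ℚ K] [NumberField K] (v : HeightOneSpectrum (𝓞 K)) {ℓ : ℕ} (hℓ : ℓ.Prime)
    (hv : (ℓ : 𝓞 K) ∈ v.asIdeal) (y : AlgebraicClosure ℚ)
    (hy : ∀ A : ValuationSubring (AlgebraicClosure ℚ), A.LiesOverPrime ℓ →
      ∀ σ ∈ A.inertiaSubgroupIn ℚ, σ ∈ K.fixingSubgroup → σ y = y)
    (a : Kˣ) (hya : y ^ 2 = ((a : K) : AlgebraicClosure ℚ)) : (2 : ℤ) ∣ ord v a := by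
  -- the Galois extension
  let F₀ : IntermediateField ℚ (AlgebraicClosure ℚ) := K ⊔ IntermediateField.adjoin ℚ {y}
  have hyint : IsIntegral ℚ y := Algebra.IsIntegral.isIntegral y
  have : FiniteDimensional ℚ (IntermediateField.adjoin ℚ {y}) :=
    IntermediateField.adjoin.finiteDimensional hyint
  have hF₀ : FiniteDimensional ℚ F₀ := IntermediateField.finiteDimensional_sup K _
  let F : IntermediateField ℚ (AlgebraicClosure ℚ) :=
    IntermediateField.normalClosure ℚ F₀ (AlgebraicClosure ℚ)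
  have hFfin : FiniteDimensional ℚ F := normalClosure.is_finiteDimensional ℚ F₀ _
  have hFn : Normal ℚ F := normalClosure.normal ℚ F₀ _
  have hFG : IsGalois ℚ F := ⟨⟩
  have hF₀F : F₀ ≤ F := IntermediateField.le_normalClosure F₀
  have hKF : K ≤ F := le_sup_left.trans hF₀F
  have hyF : y ∈ F := hF₀F ((le_sup_right : _ ≤ F₀) (IntermediateField.mem_adjoin_simple_self ℚ y))
  have : NumberField F := ⟨⟩
  let algKF : Algebra K F := (IntermediateField.inclusion hKF).toAlgebra
  have hst : IsScalarTower ℚ K F := IsScalarTower.of_algebraMap_eq (fun x => by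
    apply Subtype.ext
    rfl)
  have hGKF : IsGalois K F := IsGalois.tower_top_of_isGalois ℚ K F
  -- a prime above `v`
  obtain ⟨P, hP, hPv⟩ := Ideal.exists_ideal_over_maximal_of_isIntegral (S := 𝓞 F) v.asIdeal (by
    rw [(RingHom.injective_iff_ker_eq_bot (algebraMap (𝓞 K) (𝓞 F))).mp
      (FaithfulSMul.algebraMap_injective (𝓞 K) (𝓞 F))]
    exact bot_le)
  have hlies : P.LiesOver v.asIdeal := ⟨hPv.symm⟩
  obtain ⟨A, hA, hAℓ⟩ := exists_valuationSubring_of_prime F P
  have hℓP : (ℓ : 𝓞 F) ∈ P := by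
    have h1 : (ℓ : 𝓞 K) ∈ Ideal.comap (algebraMap (𝓞 K) (𝓞 F)) P := by rw [hPv]; exact hv
    rw [Ideal.mem_comap, map_natCast] at h1
    exact h1
  refine even_ord_of_inertia_fixes v P ⟨y, hyF⟩ ?_ a ?_
  · intro τ hτ
    let τ' : F ≃ₐ[ℚ] F := τ.restrictScalars ℚ
    obtain ⟨σ, hσ, hσF⟩ := Fermat.Agent.Minkowski.exists_lift_inertia F hℓ (hAℓ ℓ hℓP) τ' (by
      intro x
      refine ⟨τ • x - x, rfl, ?_⟩
      rw [← Ideal.mem_comap, hA]
      exact hτ x)
    have hσK : σ ∈ K.fixingSubgroup := by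
      rintro ⟨x, hx⟩
      have h1 := hσF ⟨x, hKF hx⟩
      have h2 : τ' ⟨x, hKF hx⟩ = ⟨x, hKF hx⟩ := τ.commutes ⟨x, hx⟩
      rw [h2] at h1
      exact h1
    have h3 := hy A (hAℓ ℓ hℓP) σ hσ hσK
    have h4 := hσF ⟨y, hyF⟩
    apply Subtype.ext
    change ((τ' ⟨y, hyF⟩ : F) : AlgebraicClosure ℚ) = y
    rw [← h4]
    exact h3
  · apply Subtype.ext
    exact hya

/-- Kummer theory for a quadratic character. -/
theorem exists_kummer (K : IntermediateField ℚ (AlgebraicClosure ℚ)) [FiniteDimensional ℚ K]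
    {χ : K.fixingSubgroup → ZMod 2} (hχ : ∀ σ τ, χ (σ * τ) = χ σ + χ τ)
    (hL : ∃ L : IntermediateField ℚ (AlgebraicClosure ℚ), FiniteDimensional ℚ L ∧
      ∀ σ : K.fixingSubgroup, (σ : GQ) ∈ L.fixingSubgroup → χ σ = 0) :
    ∃ y : AlgebraicClosure ℚ, y ≠ 0 ∧ ∀ σ : K.fixingSubgroup,
      (σ : GQ) y = if χ σ = 0 then y else -y := by
  obtain ⟨L, hL, hLχ⟩ := hL
  have hχ1 : χ 1 = 0 := by
    have := hχ 1 1
    rw [mul_one] at this
    simpa using this
  by_cases h0 : ∀ σ, χ σ = 0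
  · refine ⟨1, one_ne_zero, fun σ => ?_⟩
    rw [if_pos (h0 σ), map_one]
  push Not at h0
  obtain ⟨τ, hτ⟩ := h0
  have hZ : ∀ a : ZMod 2, a ≠ 0 → a = 1 := by decide
  have hχτ : χ τ = 1 := hZ _ hτ
  -- the kernel
  let H : Subgroup GQ :=
    { carrier := {g | ∃ h : g ∈ K.fixingSubgroup, χ ⟨g, h⟩ = 0}
      one_mem' := ⟨one_mem _, hχ1⟩
      mul_mem' := by
        rintro a b ⟨ha, ha'⟩ ⟨hb, hb'⟩
        refine ⟨mul_mem ha hb, ?_⟩
        have := hχ ⟨a, ha⟩ ⟨b, hb⟩
        rw [ha', hb', add_zero] at this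
        exact this
      inv_mem' := by
        rintro a ⟨ha, ha'⟩
        refine ⟨inv_mem ha, ?_⟩
        have := hχ ⟨a, ha⟩ ⟨a⁻¹, inv_mem ha⟩
        rw [ha', zero_add] at this
        rw [← this]
        have h1 : (⟨a, ha⟩ : K.fixingSubgroup) * ⟨a⁻¹, inv_mem ha⟩ = 1 := by
          apply Subtype.ext
          simp
        rw [h1, hχ1] }
  have hHopen : IsOpen (H : Set GQ) := by
    have h1 : (K ⊔ L).fixingSubgroup ≤ H := by
      intro g hg
      rw [IntermediateField.fixingSubgroup_sup] at hg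
      exact ⟨hg.1, hLχ ⟨g, hg.1⟩ hg.2⟩
    have : FiniteDimensional ℚ (K ⊔ L : IntermediateField ℚ (AlgebraicClosure ℚ)) :=
      IntermediateField.finiteDimensional_sup K L
    exact Subgroup.isOpen_mono h1 (IntermediateField.fixingSubgroup_isOpen (K ⊔ L))
  have hHclosed : IsClosed (H : Set GQ) := H.isClosed_of_isOpen hHopen
  have hfix : (IntermediateField.fixedField H).fixingSubgroup = H :=
    InfiniteGalois.fixingSubgroup_fixedField ⟨H, hHclosed⟩
  have hτH : (τ : GQ) ∉ (IntermediateField.fixedField H).fixingSubgroup := by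
    rw [hfix]
    rintro ⟨h1, h2⟩
    exact hτ h2
  obtain ⟨z, hz, hτz⟩ : ∃ z ∈ IntermediateField.fixedField H, (τ : GQ) z ≠ z := by
    by_contra hcon
    push Not at hcon
    exact hτH (fun x => hcon x.1 x.2)
  have hzH : ∀ g ∈ H, g z = z := fun g hg => hz ⟨g, hg⟩
  have hττ : ∀ σ : K.fixingSubgroup, χ σ = 0 → (σ : GQ) ∈ H := fun σ h => ⟨σ.2, h⟩
  have hχinv : ∀ σ, χ σ⁻¹ = χ σ := by
    intro σ
    have := hχ σ σ⁻¹
    rw [mul_inv_cancel, hχ1] at this
    have h2 : ∀ a b : ZMod 2, 0 = a + b → b = a := by decide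
    exact h2 _ _ this
  have hH1 : ∀ σ : K.fixingSubgroup, χ σ = 0 → (σ : GQ) (z - (τ : GQ) z) = z - (τ : GQ) z := by
    intro σ hσ
    rw [map_sub, hzH _ (hττ σ hσ)]
    have h1 : (σ : GQ) ((τ : GQ) z) = (τ : GQ) z := by
      have h2 : (τ : GQ)⁻¹ ((σ : GQ) ((τ : GQ) z)) = z := by
        have h3 : ((τ⁻¹ * σ * τ : K.fixingSubgroup) : GQ) z = z := by
          apply hzH _ (hττ _ _)
          rw [hχ, hχ, hσ, hχinv, hχτ]
          decide
        exact h3
      have h4 := congrArg (τ : GQ) h2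
      have h5 : (τ : GQ) ((τ : GQ)⁻¹ ((σ : GQ) ((τ : GQ) z))) = (σ : GQ) ((τ : GQ) z) :=
        (τ : GQ).apply_symm_apply _
      rw [h5] at h4
      exact h4
    rw [h1]
  have hH2 : (τ : GQ) (z - (τ : GQ) z) = - (z - (τ : GQ) z) := by
    have h1 : ((τ * τ : K.fixingSubgroup) : GQ) z = z := by
      apply hzH _ (hττ _ _)
      rw [hχ, hχτ]
      decide
    have h2 : (τ : GQ) ((τ : GQ) z) = z := h1
    rw [map_sub, h2]
    ring
  refine ⟨z - (τ : GQ) z, sub_ne_zero.mpr (Ne.symm hτz), fun σ => ?_⟩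
  split_ifs with h
  · exact hH1 σ h
  · have h1 : χ σ = 1 := hZ _ h
    have h2 : χ (τ⁻¹ * σ) = 0 := by
      rw [hχ, hχinv, hχτ, h1]
      decide
    have h3 := hH1 _ h2
    have h4 : (σ : GQ) (z - (τ : GQ) z) =
        (τ : GQ) (((τ⁻¹ * σ : K.fixingSubgroup) : GQ) (z - (τ : GQ) z)) := by
      have : (τ : GQ) * ((τ⁻¹ * σ : K.fixingSubgroup) : GQ) = σ := by
        push_cast
        rw [mul_inv_cancel_left]
      conv_lhs => rw [← this]
      rfl
    rw [h4, h3, hH2]

/-- **Finiteness of the set of quadratic characters** of `G_K` unramified outside `S`. -/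
theorem finite_quadChars (K : IntermediateField ℚ (AlgebraicClosure ℚ)) [FiniteDimensional ℚ K]
    (S : Finset ℕ) : (quadChars K S).Finite := by
  classical
  have : NumberField K := ⟨⟩
  -- the finite set of primes of `K` above `S`
  let SK : Set (HeightOneSpectrum (𝓞 K)) := {v | ∃ ℓ ∈ S, ℓ ≠ 0 ∧ (ℓ : 𝓞 K) ∈ v.asIdeal}
  have hSK : SK.Finite := by
    have h1 : SK = ⋃ ℓ ∈ S, {v : HeightOneSpectrum (𝓞 K) | ℓ ≠ 0 ∧ (ℓ : 𝓞 K) ∈ v.asIdeal} := by
      ext v
      simp only [SK, Set.mem_ofPred_eq, Set.mem_iUnion, exists_prop]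
    rw [h1]
    refine Set.Finite.biUnion S.finite_toSet (fun ℓ _ => ?_)
    by_cases hℓ : ℓ = 0
    · subst hℓ
      simp
    · have hℓK : (ℓ : K) ≠ 0 := by exact_mod_cast hℓ
      refine (SUnits.finite_ord_ne_zero (R := 𝓞 K) K (Units.mk0 (ℓ : K) hℓK)).subset ?_
      rintro v ⟨-, hv⟩
      rw [Set.mem_ofPred_eq, Ne, SUnits.ord_eq_zero_iff, Units.val_mk0]
      have h2 : ((ℓ : 𝓞 K) : K) = (ℓ : K) := by push_cast; rfl
      rw [← h2]
      have h3 := (HeightOneSpectrum.valuation_lt_one_iff_mem (K := K) v (ℓ : 𝓞 K)).mpr hv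
      exact h3.ne
  obtain ⟨R, hR, hRs⟩ := exists_finite_reps K SK hSK
  -- the Kummer generators
  have key : ∀ χ : quadChars K S, ∃ y : AlgebraicClosure ℚ, y ≠ 0 ∧
      (∀ σ : K.fixingSubgroup, (σ : GQ) y = if χ.1 σ = 0 then y else -y) ∧
      ∃ f ∈ R, ∃ c : Kˣ, y ^ 2 = ((f : K) : AlgebraicClosure ℚ) * ((c : K) : AlgebraicClosure ℚ) ^ 2
      := by
    rintro ⟨χ, hχ1, hχ2, hχ3⟩
    obtain ⟨y, hy0, hy⟩ := exists_kummer K hχ1 hχ2
    refine ⟨y, hy0, hy, ?_⟩
    have hyK : y ^ 2 ∈ K := by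
      have h1 : IntermediateField.fixedField K.fixingSubgroup = K :=
        InfiniteGalois.fixedField_fixingSubgroup K
      rw [← h1, IntermediateField.mem_fixedField_iff]
      intro g hg
      rw [map_pow, hy ⟨g, hg⟩]
      split_ifs
      · rfl
      · ring
    have hyK0 : (⟨y ^ 2, hyK⟩ : K) ≠ 0 := by
      intro h
      exact pow_ne_zero 2 hy0 (congrArg Subtype.val h)
    obtain ⟨f, hf, c, hfc⟩ := hRs (Units.mk0 ⟨y ^ 2, hyK⟩ hyK0) (by
      intro v hv
      -- the residue characteristic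
      have hvp : ∃ ℓ : ℕ, ℓ.Prime ∧ (ℓ : 𝓞 K) ∈ v.asIdeal := by
        obtain ⟨p, hp⟩ := CharP.exists (𝓞 K ⧸ v.asIdeal)
        have hfin : Finite (𝓞 K ⧸ v.asIdeal) :=
          Ring.HasFiniteQuotients.finiteQuotient v.ne_bot
        have hpp : p.Prime := by
          have hv' := v.isMaximal
          have : IsDomain (𝓞 K ⧸ v.asIdeal) := inferInstance
          exact CharP.char_is_prime (𝓞 K ⧸ v.asIdeal) p
        refine ⟨p, hpp, ?_⟩
        rw [← Ideal.Quotient.eq_zero_iff_mem, map_natCast]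
        exact CharP.cast_eq_zero _ p
      obtain ⟨ℓ, hℓ, hℓv⟩ := hvp
      have hℓS : ℓ ∉ S := fun h => hv ⟨ℓ, h, hℓ.ne_zero, hℓv⟩
      refine even_ord_of_inertia K v hℓ hℓv y ?_ (Units.mk0 ⟨y ^ 2, hyK⟩ hyK0) rfl
      intro A hA σ hσ hσK
      have h1 := hχ3 ℓ hℓ hℓS A hA ⟨σ, hσK⟩ hσ
      have h2 := hy ⟨σ, hσK⟩
      rw [if_pos h1] at h2
      exact h2)
    refine ⟨f, hf, c, ?_⟩
    have h2 := congrArg (fun u : Kˣ => ((u : K) : AlgebraicClosure ℚ)) hfc
    simpa using h2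
  choose y hy0 hy f hfR c hc using key
  have hinj : Function.Injective (fun χ : quadChars K S => (⟨f χ, hfR χ⟩ : R)) := by
    intro χ χ' h
    have hff : f χ = f χ' := congrArg Subtype.val h
    have h1 := hc χ
    have h2 := hc χ'
    rw [← hff] at h2
    have hcK : ∀ χ, ((c χ : K) : AlgebraicClosure ℚ) ≠ 0 := fun χ h =>
      (c χ).ne_zero (Subtype.ext h)
    have h3 : (y χ * (c χ' : K)) ^ 2 = (y χ' * (c χ : K)) ^ 2 := by
      rw [mul_pow, mul_pow, h1, h2]
      ring
    have h4 : ∀ σ : K.fixingSubgroup, ∀ x : K, (σ : GQ) (x : AlgebraicClosure ℚ) = x :=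
      fun σ x => σ.2 x
    have h5 : ∀ σ : K.fixingSubgroup, (χ.1 σ = 0 ↔ χ'.1 σ = 0) := by
      intro σ
      have hne : ∀ w : AlgebraicClosure ℚ, w ≠ 0 → - w ≠ w := by
        intro w hw h
        apply hw
        have h6 : (2 : AlgebraicClosure ℚ) * w = 0 := by
          linear_combination -h
        rcases mul_eq_zero.mp h6 with h7 | h7
        · exact absurd h7 two_ne_zero
        · exact h7
      have h6 : ∀ χ : quadChars K S, χ.1 σ = 0 ↔ (σ : GQ) (y χ) = y χ := by
        intro χ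
        rw [hy χ σ]
        split_ifs with h
        · simp [h]
        · simp only [h, false_iff]
          exact hne _ (hy0 χ)
      rw [h6, h6]
      have hc0 := hcK χ
      have hc0' := hcK χ'
      rcases sq_eq_sq_iff_eq_or_eq_neg.mp h3 with h7 | h7
      · constructor
        · intro h8
          have h9 := congrArg (σ : GQ) h7
          rw [map_mul, map_mul, h4, h4, h8, h7] at h9
          exact (mul_right_cancel₀ hc0 h9).symm
        · intro h8
          have h9 := congrArg (σ : GQ) h7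
          rw [map_mul, map_mul, h4, h4, h8, ← h7] at h9
          exact mul_right_cancel₀ hc0' h9
      · constructor
        · intro h8
          have h9 := congrArg (σ : GQ) h7
          rw [map_neg, map_mul, map_mul, h4, h4, h8, h7, neg_inj] at h9
          exact (mul_right_cancel₀ hc0 h9).symm
        · intro h8
          have h9 := congrArg (σ : GQ) h7
          rw [map_neg, map_mul, map_mul, h4, h4, h8, ← h7] at h9
          exact mul_right_cancel₀ hc0' h9
    apply Subtype.ext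
    funext σ
    have h6 : ∀ a b : ZMod 2, (a = 0 ↔ b = 0) → a = b := by decide
    exact h6 _ _ (h5 σ)
  have : Finite R := hR.to_subtype
  have : Finite (quadChars K S) := Finite.of_injective _ hinj
  exact Set.toFinite _

end Fermat.Agent.MW
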