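import Fermat.Agent.Frob.Exists
import Fermat.Prelude.Def_ModularCurve_ArithmeticGalois
import Mathlib.LinearAlgebra.Dual.Lemmas
import Mathlib.LinearAlgebra.Dimension.Finite
import Mathlib.LinearAlgebra.FiniteDimensional.Basic

/-!
# Galois descent for finite-dimensional stable subspaces of Laurent series
-/

set_option autoImplicit false

namespace Fermat.Agent.MW

open ModularCurve AlgebraicCurve
open Fermat.Agent.Frob (GQ)
open Fermat.Agent

/-- Abstract Galois descent: if a family of equivariant functionals separates points, then the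
space is spanned by its fixed vectors. -/
theorem span_fixed_abs {L V ι G : Type*} [Field L] [AddCommGroup V] [Module L V]
    [FiniteDimensional L V] (φ : ι → Module.Dual L V) (hsep : ∀ v, (∀ i, φ i v = 0) → v = 0)
    (act : G → V → V) (base : G → L → L) (h0 : ∀ g, base g 0 = 0) (h1 : ∀ g, base g 1 = 1)
    (hact : ∀ g i v, φ i (act g v) = base g (φ i v)) :
    Submodule.span L {v | ∀ g, act g v = v} = ⊤ := by
  classical
  have hDfin : FiniteDimensional L (Module.Dual L V) := inferInstance
  obtain ⟨b, hbs, hspan, hli⟩ := exists_linearIndependent L (Set.range φ)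
  have hbfin : Finite b := hli.finite
  have hfb : Fintype b := Fintype.ofFinite b
  let Φ : V →ₗ[L] (b → L) := LinearMap.pi (fun i => i.1)
  have hinj : Function.Injective Φ := by
    rw [← LinearMap.ker_eq_bot, LinearMap.ker_eq_bot']
    intro v hv
    have h1 : ∀ f ∈ Submodule.span L b, f v = 0 := by
      intro f hf
      induction hf using Submodule.span_induction with
      | mem f hf => exact congrFun hv ⟨f, hf⟩
      | zero => rfl
      | add f g _ _ hf hg => rw [LinearMap.add_apply, hf, hg, add_zero]
      | smul c f _ hf => rw [LinearMap.smul_apply, hf, smul_zero]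
    exact hsep v fun i => h1 (φ i) (by rw [hspan]; exact Submodule.subset_span ⟨i, rfl⟩)
  have hcard : Module.finrank L V = Module.finrank L (b → L) := by
    apply le_antisymm (LinearMap.finrank_le_finrank_of_injective hinj)
    rw [Module.finrank_fintype_fun_eq_card]
    have h1 := hli.fintype_card_le_finrank
    rwa [Subspace.dual_finrank_eq] at h1
  have hsurj : Function.Surjective Φ :=
    (LinearMap.injective_iff_surjective_of_finrank_eq_finrank hcard).mp hinj
  choose e he using fun i : b => hsurj (Pi.single i 1)
  have hfix : ∀ i : b, ∀ g : G, act g (e i) = e i := by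
    intro i g
    apply hinj
    funext k
    obtain ⟨n, hn⟩ := hbs k.2
    have h2 : ∀ w : V, Φ w k = φ n w := by
      intro w
      change k.1 w = _
      rw [← hn]
    rw [h2, h2, hact, ← h2, he]
    by_cases hik : k = i
    · subst hik; simp [h1]
    · simp [Pi.single_eq_of_ne hik, h0]
  rw [eq_top_iff]
  intro f _
  have h3 : f = ∑ i, (Φ f i) • e i := by
    apply hinj
    rw [map_sum]
    simp_rw [map_smul, he]
    funext k
    simp [Finset.sum_apply, Pi.single_apply]
  rw [h3]
  exact Submodule.sum_mem _ fun i _ => Submodule.smul_mem _ _ (Submodule.subset_span (hfix i))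

section

variable {L : Type*} [Field L] [Algebra ℚ L] (F₀ : IntermediateField ℚ (LaurentSeries ℚ))

lemma coeff_smul_laurent (c : L) (f : laurentBaseChange L F₀) (n : ℤ) :
    ((c • f : laurentBaseChange L F₀) : LaurentSeries L).coeff n
      = c * (f : LaurentSeries L).coeff n := by
  rw [Algebra.smul_def]
  change (algebraMap L (LaurentSeries L) c * (f : LaurentSeries L)).coeff n = _
  rw [algebraMap_laurentSeries_eq_single, HahnSeries.coeff_single_zero_mul]

/-- The coefficient functional. -/
noncomputable def coeffFun (n : ℤ) : laurentBaseChange L F₀ →ₗ[L] L where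
  toFun f := (f : LaurentSeries L).coeff n
  map_add' f g := rfl
  map_smul' c f := coeff_smul_laurent F₀ c f n

lemma coeffFun_smul (σ : L ≃ₐ[ℚ] L) (n : ℤ) (f : laurentBaseChange L F₀) :
    coeffFun F₀ n (arithmeticGalois F₀ σ • f) = σ (coeffFun F₀ n f) := rfl

/-- **Galois descent**: a finite-dimensional subspace of the function field which is stable under
the arithmetic Galois action is spanned by its fixed elements. -/
theorem span_fixed (V : Submodule L (laurentBaseChange L F₀)) [FiniteDimensional L V]
    (hV : ∀ σ : L ≃ₐ[ℚ] L, ∀ f ∈ V, arithmeticGalois F₀ σ • f ∈ V) :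
    Submodule.span L {f | f ∈ V ∧ ∀ σ : L ≃ₐ[ℚ] L, arithmeticGalois F₀ σ • f = f} = V := by
  have key := span_fixed_abs (L := L) (V := V) (ι := ℤ) (G := L ≃ₐ[ℚ] L)
    (fun n => (coeffFun F₀ n).comp V.subtype)
    (fun v hv => by
      apply Subtype.ext
      apply Subtype.ext
      apply HahnSeries.ext
      funext n
      exact hv n)
    (fun σ f => ⟨arithmeticGalois F₀ σ • (f : laurentBaseChange L F₀), hV σ _ f.2⟩)
    (fun σ => σ) (fun σ => map_zero σ) (fun σ => map_one σ) (fun σ n v => rfl)
  apply le_antisymm
  · rw [Submodule.span_le]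
    exact fun f hf => hf.1
  · intro f hf
    have h1 : (⟨f, hf⟩ : V) ∈ (⊤ : Submodule L V) := trivial
    rw [← key] at h1
    have h2 := Submodule.mem_map_of_mem (f := V.subtype) h1
    rw [Submodule.map_span] at h2
    refine Submodule.span_mono ?_ h2
    rintro _ ⟨g, hg, rfl⟩
    exact ⟨g.2, fun σ => congrArg Subtype.val (hg σ)⟩

end

end Fermat.Agent.MW
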