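import Fermat.Agent.S27.UltraTors

/-!
# Divisibility of class groups and ultraproducts
-/

set_option autoImplicit false
set_option linter.style.haveILetI false
set_option linter.unusedSectionVars false

namespace Fermat.Agent.MW

open Module TensorProduct Filter nonZeroDivisors Fermat.Agent.S27 Fermat.Agent.S27.GapAlg

/-- Divisibility by `n` of the class group, phrased with ideals. -/
def DivBy (A : Type*) [CommRing A] (n : ℕ) : Prop :=
  ∀ I : Ideal A, I ≠ ⊥ → ∃ J : Ideal A, J ≠ ⊥ ∧ (I * J ^ n).IsPrincipal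

theorem divBy_iff {A : Type*} [CommRing A] [IsDedekindDomain A] {n : ℕ} :
    DivBy A n ↔ ∀ x : ClassGroup A, ∃ y : ClassGroup A, y ^ n = x := by
  constructor
  · intro h x
    obtain ⟨I, hI⟩ := ClassGroup.mk0_surjective x⁻¹
    obtain ⟨J, hJ, hIJ⟩ := h I (nonZeroDivisors.coe_ne_zero I)
    refine ⟨ClassGroup.mk0 ⟨J, mem_nonZeroDivisors_iff_ne_zero.mpr hJ⟩, ?_⟩
    have h1 := (mk0_mul_pow_eq_one_iff I ⟨J, mem_nonZeroDivisors_iff_ne_zero.mpr hJ⟩ n).mpr hIJ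
    rw [hI, inv_mul_eq_one] at h1
    exact h1.symm
  · intro h I hI
    obtain ⟨y, hy⟩ := h (ClassGroup.mk0 ⟨I, mem_nonZeroDivisors_iff_ne_zero.mpr hI⟩)⁻¹
    obtain ⟨J, rfl⟩ := ClassGroup.mk0_surjective y
    refine ⟨J, nonZeroDivisors.coe_ne_zero J, ?_⟩
    have h1 := (mk0_mul_pow_eq_one_iff ⟨I, mem_nonZeroDivisors_iff_ne_zero.mpr hI⟩ J n).mp
      (by rw [hy, mul_inv_cancel])
    exact h1

/-- One may choose the quotient to have codimension `2 g`. -/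
theorem exists_codim_eq {k B : Type*} [Field k] [CommRing B] [Algebra k B] {S : AddSubmonoid ℕ}
    [Cofin S] [IsAlgClosed k] (G : GapAlg k B S) [IsDedekindDomain B] {n : ℕ} (h : DivBy B n)
    {I : Ideal B} (hI : I ≠ ⊥) :
    ∃ J : Ideal B, J ≠ ⊥ ∧ codim (J.restrictScalars k) = 2 * gaps S ∧ (I * J ^ n).IsPrincipal := by
  obtain ⟨J, hJ, hIJ⟩ := h I hI
  let J' : (Ideal B)⁰ := ⟨J, mem_nonZeroDivisors_iff_ne_zero.mpr hJ⟩
  let I' : (Ideal B)⁰ := ⟨I, mem_nonZeroDivisors_iff_ne_zero.mpr hI⟩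
  obtain ⟨J₂, hJ₂, hd⟩ := G.mem_D_of_le (ClassGroup.mk0 J') (le_refl (2 * gaps S))
  refine ⟨J₂, nonZeroDivisors.coe_ne_zero J₂, hd, ?_⟩
  rw [← mk0_mul_pow_eq_one_iff I' J₂ n, hJ₂]
  exact (mk0_mul_pow_eq_one_iff I' J' n).mpr hIJ

section ultra

variable {R B : Type*} [CommRing R] [CommRing B] [Algebra R B] {S : AddSubmonoid ℕ} [Cofin S]
  (G : GapAlg R B S) {ι : Type*} {U : Ultrafilter ι} {k : ι → Type*} [∀ i, Field (k i)]
  [∀ i, Algebra R (k i)] [∀ i, IsAlgClosed (k i)]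

include G in
theorem Psi_top : Psi U k (fun i => (⊤ : Ideal (k i ⊗[R] B))) = ⊤ := by
  rw [Ideal.eq_top_iff_one, ← map_one (qq (R := R) (B := B) U k), G.qq_mem_Psi]
  exact Eventually.of_forall fun i => trivial

include G in
theorem Psi_pow {I : ∀ i, Ideal (k i ⊗[R] B)} {d : ℕ}
    (hDed : ∀ᶠ i in (U : Filter ι), IsIntegrallyClosed (k i ⊗[R] B))
    [IsIntegrallyClosed (Star U k ⊗[R] B)]
    (hI : ∀ᶠ i in (U : Filter ι), I i ≠ ⊥)
    (hd : ∀ᶠ i in (U : Filter ι), codim ((I i).restrictScalars (k i)) ≤ d) (n : ℕ) :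
    (∀ᶠ i in (U : Filter ι), I i ^ n ≠ ⊥) ∧
    (∀ᶠ i in (U : Filter ι), codim ((I i ^ n).restrictScalars (k i)) ≤ n * d) ∧
    Psi U k (fun i => I i ^ n) = Psi U k I ^ n := by
  induction n with
  | zero =>
    simp only [pow_zero, Ideal.one_eq_top]
    refine ⟨?_, ?_, Psi_top G⟩
    · refine Eventually.of_forall fun i => ?_
      haveI := (G.baseChange (k i)).nontrivial
      exact top_ne_bot
    · refine Eventually.of_forall fun i => ?_
      haveI := (G.baseChange (k i)).nontrivial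
      exact (((G.baseChange (k i)).codim_eq_zero_iff top_ne_bot).mpr rfl).le.trans (Nat.zero_le _)
  | succ n ih =>
    obtain ⟨h1, h2, h3⟩ := ih
    obtain ⟨h4, h5, h6⟩ := G.Psi_mul hDed h1 h2 hI hd
    simp only [pow_succ]
    refine ⟨h4, ?_, ?_⟩
    · filter_upwards [h5] with i hi
      rw [Nat.add_mul, one_mul]
      exact hi
    · rw [h6, h3]

include G in
/-- Transfer of divisibility to the ultraproduct. -/
theorem divBy_star [Algebra.FinitePresentation R B]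
    (hDed : ∀ᶠ i in (U : Filter ι), IsIntegrallyClosed (k i ⊗[R] B))
    [IsIntegrallyClosed (Star U k ⊗[R] B)] {n : ℕ}
    (hdiv : ∀ᶠ i in (U : Filter ι), DivBy (k i ⊗[R] B) n) :
    DivBy (Star U k ⊗[R] B) n := by
  classical
  intro 𝔞 h0
  obtain ⟨I, d, hI, hd, rfl⟩ := G.good_of_ne_bot hDed 𝔞 h0
  have hex : ∀ᶠ i in (U : Filter ι), ∃ J : Ideal (k i ⊗[R] B), J ≠ ⊥ ∧
      codim (J.restrictScalars (k i)) ≤ 2 * gaps S ∧ (I i * J ^ n).IsPrincipal := by
    filter_upwards [hDed, hdiv, hI] with i h1 h2 h3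
    haveI := (G.baseChange (k i)).isDedekindDomain
    obtain ⟨J, hJ, hJd, hJp⟩ := exists_codim_eq (G.baseChange (k i)) h2 h3
    exact ⟨J, hJ, hJd.le, hJp⟩
  let J : ∀ i, Ideal (k i ⊗[R] B) := fun i =>
    if h : ∃ J : Ideal (k i ⊗[R] B), J ≠ ⊥ ∧
      codim (J.restrictScalars (k i)) ≤ 2 * gaps S ∧ (I i * J ^ n).IsPrincipal then h.choose else ⊤
  have hJ : ∀ᶠ i in (U : Filter ι), J i ≠ ⊥ ∧
      codim ((J i).restrictScalars (k i)) ≤ 2 * gaps S ∧ (I i * J i ^ n).IsPrincipal := by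
    filter_upwards [hex] with i hi
    simp only [J]
    rw [dif_pos hi]
    exact hi.choose_spec
  have hJ1 : ∀ᶠ i in (U : Filter ι), J i ≠ ⊥ := by filter_upwards [hJ] with i hi using hi.1
  have hJ2 : ∀ᶠ i in (U : Filter ι), codim ((J i).restrictScalars (k i)) ≤ 2 * gaps S := by
    filter_upwards [hJ] with i hi using hi.2.1
  have hJ3 : ∀ᶠ i in (U : Filter ι), (I i * J i ^ n).IsPrincipal := by
    filter_upwards [hJ] with i hi using hi.2.2
  refine ⟨Psi U k J, G.Psi_ne_bot hJ1 hJ2, ?_⟩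
  obtain ⟨h1, h2, h3⟩ := Psi_pow G hDed hJ1 hJ2 n
  obtain ⟨h4, h5, h6⟩ := G.Psi_mul hDed hI hd h1 h2
  rw [← h3, ← h6]
  obtain ⟨i, hi1, hi2⟩ := (hJ3.and (G.isPrincipal_Psi_iff h4 h5)).exists
  exact hi2.mp hi1

end ultra

end Fermat.Agent.MW
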